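import Fermat.Agent.CurveBaseChange.Basic
import Fermat.Agent.RelJac.DomainTensor
import Fermat.Prelude.Def_AlgebraicCurve_BaseChangeGalois
import Mathlib.RingTheory.Flat.Basic
import Mathlib.LinearAlgebra.TensorProduct.Finiteness

/-!
# The tensor product with a constant field

`F'` is the fraction field of `L ⊗ F`; semilinear automorphisms and existence of constant field
extensions.
-/

set_option autoImplicit false

noncomputable section

open AlgebraicCurve IntermediateField
open scoped TensorProduct

namespace Fermat.Agent.CurveBaseChange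

variable {k F L F' : Type*} [Field k] [Field F] [Field L] [Field F'] [Algebra k F] [Algebra k L]
  [Algebra L F'] [Algebra F F'] [Algebra k F'] [IsScalarTower k L F'] [IsScalarTower k F F']

variable (k F L F') in
/-- The multiplication `L ⊗ F → F'`. -/
def tensorToExt : L ⊗[k] F →ₐ[L] F' :=
  Algebra.TensorProduct.lift (Algebra.ofId L F') (IsScalarTower.toAlgHom k F F')
    fun _ _ => .all _ _

@[simp]
theorem tensorToExt_tmul (a : L) (f : F) :
    tensorToExt k F L F' (a ⊗ₜ f) = algebraMap L F' a * algebraMap F F' f :=
  Algebra.TensorProduct.lift_tmul _ _ _ a f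

theorem adjoin_range_le_range :
    Algebra.adjoin L (Set.range (algebraMap F F')) ≤ (tensorToExt k F L F').range :=
  Algebra.adjoin_le fun _ ⟨f, hf⟩ => ⟨1 ⊗ₜ f, by simp [← hf]⟩

variable [IsConstExt k F L F']

theorem tensorToExt_injective : Function.Injective (tensorToExt k F L F') := by
  let b := Module.Free.chooseBasis k F
  let B := Algebra.TensorProduct.basis L b
  have hli : LinearIndependent L fun i => algebraMap F F' (b i) :=
    linearIndependent_map b.linearIndependent
  have h : ∀ z, tensorToExt k F L F' z
      = Finsupp.linearCombination L (fun i => algebraMap F F' (b i)) (B.repr z) := by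
    have : (tensorToExt k F L F').toLinearMap
        = (Finsupp.linearCombination L fun i => algebraMap F F' (b i)).comp B.repr.toLinearMap :=
      B.ext fun i => by simp [B]
    exact LinearMap.congr_fun this
  intro x y hxy
  rw [h, h] at hxy
  exact B.repr.injective (hli hxy)

variable (k F L F') in
/-- Every element of `F'` is a quotient of two elements of the image of `L ⊗ F`. -/
theorem exists_eq_div (z : F') :
    ∃ r s : L ⊗[k] F, z = tensorToExt k F L F' r / tensorToExt k F L F' s := by
  have hz : z ∈ IntermediateField.adjoin L (Set.range (algebraMap F F')) := by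
    rw [IsConstExt.adjoin_eq_top (k := k)]
    exact IntermediateField.mem_top
  obtain ⟨r, hr, s, hs, rfl⟩ := mem_adjoin_iff_div.mp hz
  obtain ⟨r', rfl⟩ := adjoin_range_le_range (k := k) hr
  obtain ⟨s', rfl⟩ := adjoin_range_le_range (k := k) hs
  exact ⟨r', s', rfl⟩

variable (k F L F') in
/-- Automorphisms of the constants extend to semilinear automorphisms fixing `F`. -/
theorem exists_semilinearAut (σ : L ≃ₐ[k] L) :
    ∃ g : SemilinearAut L F', (∀ a : L, SemilinearAut.baseAut g a = σ a) ∧
      ∀ f : F, g • algebraMap F F' f = algebraMap F F' f := by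
  let : Algebra (L ⊗[k] F) F' := (tensorToExt k F L F').toRingHom.toAlgebra
  have halg : ∀ x, algebraMap (L ⊗[k] F) F' x = tensorToExt k F L F' x := fun _ => rfl
  have : FaithfulSMul (L ⊗[k] F) F' :=
    (faithfulSMul_iff_algebraMap_injective _ _).mpr tensorToExt_injective
  have : IsFractionRing (L ⊗[k] F) F' :=
    IsFractionRing.of_field _ _ (exists_eq_div k F L F')
  let e : L ⊗[k] F ≃+* L ⊗[k] F :=
    (Algebra.TensorProduct.congr σ (AlgEquiv.refl (R := k) (A₁ := F))).toRingEquiv
  let τ : F' ≃+* F' := IsFractionRing.ringEquivOfRingEquiv e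
  have hτ : ∀ a : L, ∀ f : F, τ (algebraMap L F' a * algebraMap F F' f)
      = algebraMap L F' (σ a) * algebraMap F F' f := by
    intro a f
    rw [← tensorToExt_tmul (k := k), ← halg,
      show τ (algebraMap (L ⊗[k] F) F' (a ⊗ₜ f)) = algebraMap (L ⊗[k] F) F' (e (a ⊗ₜ f)) from
        IsFractionRing.ringEquivOfRingEquiv_algebraMap e _, halg,
      show e (a ⊗ₜ f) = σ a ⊗ₜ f from rfl, tensorToExt_tmul]
  have hL : ∀ a : L, τ (algebraMap L F' a) = algebraMap L F' (σ a) := fun a => by
    simpa using hτ a 1
  refine ⟨⟨(τ, σ.toRingEquiv), hL⟩, fun a => rfl, fun f => ?_⟩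
  have := hτ 1 f
  rw [map_one, map_one, map_one, one_mul] at this
  exact this

section Existence

variable (k F L)

/-- Base change to a field of a field over an algebraically closed field is a domain. -/
theorem isDomain_tensorProduct [IsAlgClosed k] : IsDomain (L ⊗[k] F) := by
  classical
  have : Nontrivial (L ⊗[k] F) :=
    Algebra.TensorProduct.nontrivial_of_algebraMap_injective_of_isDomain k L F
      (FaithfulSMul.algebraMap_injective k L) (FaithfulSMul.algebraMap_injective k F)
  suffices h : ∀ u v : L ⊗[k] F, u * v = 0 → u = 0 ∨ v = 0 by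
    have : NoZeroDivisors (L ⊗[k] F) := ⟨fun {u v} => h u v⟩
    exact NoZeroDivisors.to_isDomain _
  intro u v huv
  obtain ⟨N, hN, hsub⟩ := TensorProduct.exists_finite_submodule_right_of_setFinite
    ({u, v} : Set (L ⊗[k] F)) (Set.toFinite _)
  obtain ⟨S, hS⟩ := Module.Finite.iff_fg.mp hN
  let A := Algebra.adjoin k (S : Set F)
  have : Algebra.FiniteType k A :=
    Subalgebra.fg_iff_finiteType A |>.mp ⟨S, rfl⟩
  have := RelJac.isDomain_tensorProduct (k := k) (A := A) L
  let j : L ⊗[k] A →ₐ[k] L ⊗[k] F := Algebra.TensorProduct.map (AlgHom.id k L) A.val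
  have hj : Function.Injective j := fun x y h =>
    Module.Flat.lTensor_preserves_injective_linearMap (M := L) A.val.toLinearMap
      Subtype.val_injective h
  have hle : N ≤ Subalgebra.toSubmodule A := hS ▸ Submodule.span_le.mpr Algebra.subset_adjoin
  have hrange : ∀ w ∈ ({u, v} : Set (L ⊗[k] F)), ∃ w', j w' = w := by
    intro w hw
    obtain ⟨y, rfl⟩ := hsub hw
    refine ⟨(Submodule.inclusion hle).lTensor L y, ?_⟩
    show (A.val.toLinearMap.lTensor L) ((Submodule.inclusion hle).lTensor L y) = _
    rw [← LinearMap.comp_apply, ← LinearMap.lTensor_comp]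
    rfl
  obtain ⟨u', rfl⟩ := hrange u (by simp)
  obtain ⟨v', rfl⟩ := hrange v (by simp)
  rw [← map_mul, map_eq_zero_iff j hj, mul_eq_zero] at huv
  exact huv.imp (fun h => by rw [h, map_zero]) (fun h => by rw [h, map_zero])

variable [IsDomain (L ⊗[k] F)]

/-- The constant field extension of `F` to `L`. -/
abbrev ConstExtField : Type _ := FractionRing (L ⊗[k] F)

/-- `F → ConstExtField`. -/
abbrev constExtHom : F →+* ConstExtField k F L :=
  (algebraMap (L ⊗[k] F) (ConstExtField k F L)).comp
    (Algebra.TensorProduct.includeRight : F →ₐ[k] L ⊗[k] F).toRingHom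

omit [IsDomain (L ⊗[k] F)] in
/-- The structure maps `k → F → ConstExtField k F L` form a scalar tower. -/
theorem constExt_tower :
    letI := (constExtHom k F L).toAlgebra
    IsScalarTower k F (ConstExtField k F L) := by
  let := (constExtHom k F L).toAlgebra
  refine IsScalarTower.of_algebraMap_eq fun a => ?_
  show _ = algebraMap (L ⊗[k] F) (ConstExtField k F L)
    ((Algebra.TensorProduct.includeRight : F →ₐ[k] L ⊗[k] F) (algebraMap k F a))
  rw [AlgHom.commutes, ← IsScalarTower.algebraMap_apply]

/-- `ConstExtField k F L` is the constant field extension of `F` to `L`. -/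
theorem isConstExt_constExtField :
    letI := (constExtHom k F L).toAlgebra
    IsConstExt k F L (ConstExtField k F L) := by
  classical
  let := (constExtHom k F L).toAlgebra
  have hmap : ∀ (a : L) (f : F), a • algebraMap F (ConstExtField k F L) f
      = algebraMap (L ⊗[k] F) (ConstExtField k F L) (a ⊗ₜ f) := by
    intro a f
    show a • algebraMap (L ⊗[k] F) (ConstExtField k F L) (1 ⊗ₜ f) = _
    rw [Algebra.smul_def, IsScalarTower.algebraMap_apply L (L ⊗[k] F) (ConstExtField k F L),
      ← map_mul, Algebra.TensorProduct.algebraMap_apply, Algebra.TensorProduct.tmul_mul_tmul]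
    simp
  refine ⟨fun {n} g hg => ?_, ?_⟩
  · rw [Fintype.linearIndependent_iff]
    intro a ha j
    simp only [hmap, ← map_sum] at ha
    rw [map_eq_zero_iff _ (IsFractionRing.injective _ _)] at ha
    obtain ⟨π, hπ⟩ := (Fintype.linearCombination k g).exists_leftInverse_of_injective
      (LinearMap.ker_eq_bot.mpr (linearIndependent_iff_injective_fintypeLinearCombination.mp hg))
    have h := congrArg (((LinearMap.proj j).comp π).lTensor L) ha
    simp only [map_sum, map_zero, LinearMap.lTensor_tmul] at h
    have hπg : ∀ i, ((LinearMap.proj j).comp π) (g i) = if i = j then 1 else 0 := by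
      intro i
      have := congrFun (LinearMap.congr_fun hπ (Pi.single i 1)) j
      simp [Fintype.linearCombination_apply_single, Pi.single_apply] at this
      simpa [eq_comm] using this
    simp only [hπg, TensorProduct.tmul_ite, Finset.sum_ite_eq',
      Finset.mem_univ, if_true] at h
    simpa using congrArg (TensorProduct.rid k L) h
  · rw [eq_top_iff]
    intro z _
    have hall : ∀ w : L ⊗[k] F, algebraMap (L ⊗[k] F) (ConstExtField k F L) w ∈
        adjoin L (Set.range (algebraMap F (ConstExtField k F L))) := by
      intro w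
      induction w using TensorProduct.induction_on with
      | zero => rw [map_zero]; exact zero_mem _
      | tmul a f =>
        rw [← hmap]
        exact IntermediateField.smul_mem _ (IntermediateField.subset_adjoin L _ (Set.mem_range_self f))
      | add p q hp hq => rw [map_add]; exact add_mem hp hq
    obtain ⟨r, s, -, rfl⟩ := IsFractionRing.div_surjective (A := L ⊗[k] F) z
    exact div_mem (hall r) (hall s)

end Existence

end Fermat.Agent.CurveBaseChange
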