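import Fermat.Agent.CurveBaseChange.Pic0Map
import Fermat.Agent.CurveBaseChange.Tensor
import Mathlib.FieldTheory.IsAlgClosed.Classification

/-!
# Galois descent of torsion divisor classes

Along an extension of algebraically closed constants a finite group of torsion classes is already
defined over the smaller field.
-/

set_option autoImplicit false

noncomputable section

open AlgebraicCurve IntermediateField
open Fermat.Agent.FunctionField
open scoped Pointwise

namespace Fermat.Agent.CurveBaseChange

/-- An element with finite orbit under the automorphisms over an algebraically closed subfield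
lies in that subfield. -/
theorem mem_range_of_finite_orbit {k L : Type*} [Field k] [Field L] [Algebra k L] [IsAlgClosed k]
    [IsAlgClosed L] [CharZero k] {a : L} (h : (Set.range fun σ : L ≃ₐ[k] L => σ a).Finite) :
    a ∈ Set.range (algebraMap k L) := by
  classical
  by_contra hna
  have hind : AlgebraicIndepOn k id ({a} : Set L) :=
    algebraicIndependent_unique_type_iff.mpr (transcendental_of_notMem_range hna)
  obtain ⟨t, hsub, ht⟩ := exists_isTranscendenceBasis_superset hind
  have : CharZero L := charZero_of_injective_algebraMap (algebraMap k L).injective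
  let A := Algebra.adjoin k (Set.range ((↑) : t → L))
  have : IsAlgClosure A L := IsAlgClosed.isAlgClosure_of_transcendence_basis _ ht
  let i₀ : t := ⟨a, hsub rfl⟩
  have hshift : ∀ m : ℕ, ∃ σ : L ≃ₐ[k] L, σ a = a + m := by
    intro m
    let up : ∀ c : k, MvPolynomial t k →ₐ[k] MvPolynomial t k := fun c =>
      MvPolynomial.aeval fun i => MvPolynomial.X i + if i = i₀ then MvPolynomial.C c else 0
    have hinv : ∀ c : k, (up c).comp (up (-c)) = AlgHom.id k _ := by
      intro c
      refine MvPolynomial.algHom_ext fun i => ?_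
      by_cases hi : i = i₀
      · simp [up, hi]
      · simp [up, hi]
    let e : MvPolynomial t k ≃ₐ[k] MvPolynomial t k :=
      AlgEquiv.ofAlgHom (up (m : k)) (up (-(m : k))) (hinv _) (by simpa using hinv (-(m : k)))
    let φ : A ≃ₐ[k] A := ht.1.aevalEquiv.symm.trans (e.trans ht.1.aevalEquiv)
    let τ : L ≃+* L := IsAlgClosure.equivOfEquiv L L φ.toRingEquiv
    have hτA : ∀ s : A, τ (s : L) = φ s := fun s =>
      IsAlgClosure.equivOfEquiv_algebraMap L L φ.toRingEquiv s
    refine ⟨AlgEquiv.ofRingEquiv (f := τ) fun c => ?_, ?_⟩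
    · have := hτA (algebraMap k A c)
      rwa [AlgEquiv.commutes] at this
    · show τ a = a + m
      have hX : (ht.1.aevalEquiv (MvPolynomial.X i₀) : L) = a := by
        rw [AlgebraicIndependent.aevalEquiv_apply_coe, MvPolynomial.aeval_X]
      conv_lhs => rw [← hX]
      rw [hτA]
      simp [φ, e, up]
      exact hX
  choose σ hσ using hshift
  have hsub' : Set.range (fun m : ℕ => a + (m : L)) ⊆ Set.range fun σ : L ≃ₐ[k] L => σ a :=
    Set.range_subset_iff.mpr fun m => ⟨σ m, hσ m⟩
  exact ((Set.infinite_range_of_injective (f := fun m : ℕ => a + (m : L)) fun m m' hmm =>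
    Nat.cast_injective (add_left_cancel hmm)).mono hsub') h

section Rigid

variable {K F : Type*} [Field K] [Field F] [Algebra K F]

/-- `E` is the only effective divisor in its class and does not contain `P₀`. -/
def IsRigid (P₀ : Place K F) (E : Divisor K F) : Prop :=
  0 ≤ E ∧ E P₀ = 0 ∧ ∀ E' : Divisor K F, 0 ≤ E' →
    E' - E ∈ Divisor.principal (K := K) (F := F) → E' = E

variable [IsAlgClosed K] [IsFunctionField K F]

/-- `E - (deg E) P₀`. -/
def normalised (P₀ : Place K F) (E : Divisor K F) : Divisor.degZero (K := K) (F := F) :=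
  ⟨E - Finsupp.single P₀ (Divisor.degree E), by
    rw [Divisor.mem_degZero, map_sub, Divisor.degree_single, deg_eq_one P₀, Nat.cast_one, mul_one,
      sub_self]⟩

omit [IsAlgClosed K] [IsFunctionField K F] in
theorem mk_eq_mk_iff {D D' : Divisor.degZero (K := K) (F := F)} :
    Pic0.mk D = Pic0.mk D' ↔
      (D : Divisor K F) - D' ∈ Divisor.principal (K := K) (F := F) := by
  rw [← sub_eq_zero (a := Pic0.mk D)]
  show (QuotientAddGroup.mk (D - D') : Pic0 K F) = 0 ↔ _
  rw [QuotientAddGroup.eq_zero_iff]
  rfl

theorem IsRigid.eq_of_mk_eq {P₀ : Place K F} {E E' : Divisor K F} (hE : IsRigid P₀ E)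
    (hE' : IsRigid P₀ E')
    (h : Pic0.mk (normalised P₀ E) = Pic0.mk (normalised P₀ E')) : E = E' := by
  wlog hle : Divisor.degree E ≤ Divisor.degree E' generalizing E E' with H
  · exact (H hE' hE h.symm (le_of_not_ge hle)).symm
  set E'' := E + Finsupp.single P₀ (Divisor.degree E' - Divisor.degree E) with hE''
  have hnn : 0 ≤ E'' := add_nonneg hE.1 (Finsupp.single_nonneg.mpr (by omega))
  have heq : E'' = E' := hE'.2.2 E'' hnn (by
    have := mk_eq_mk_iff.mp h
    convert this using 1
    simp only [normalised, hE'', Finsupp.single_sub]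
    abel)
  have h0 := DFunLike.congr_fun heq P₀
  rw [hE'', Finsupp.add_apply, Finsupp.single_eq_same, hE.2.1, hE'.2.1, zero_add] at h0
  rw [← heq, hE'', h0, Finsupp.single_zero, add_zero]

theorem exists_rigid (P₀ : Place K F) (D : Divisor.degZero (K := K) (F := F)) :
    ∃ E, IsRigid P₀ E ∧ Pic0.mk (normalised P₀ E) = Pic0.mk D := by
  classical
  have hd : Divisor.degree (D : Divisor K F) = 0 := Divisor.mem_degZero.mp D.2
  have hdeg : ∀ r : ℕ, Divisor.degree ((D : Divisor K F) + Finsupp.single P₀ (r : ℤ)) = r := by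
    intro r
    rw [map_add, hd, Divisor.degree_single, deg_eq_one P₀, Nat.cast_one, mul_one, zero_add]
  have hex : ∃ r : ℕ, 0 < ell ((D : Divisor K F) + Finsupp.single P₀ (r : ℤ)) := by
    refine ⟨genusFF K F, ?_⟩
    have h := riemann_roch ((D : Divisor K F) + Finsupp.single P₀ (genusFF K F : ℤ))
    rw [hdeg] at h
    omega
  set r := Nat.find hex with hr
  set D' := (D : Divisor K F) + Finsupp.single P₀ (r : ℤ) with hD'
  obtain ⟨f, hf, hf0⟩ := exists_ne_zero_mem_of_ell_pos (D := D') (Nat.find_spec hex)
  set E := D' + divFun K f with hE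
  have hEdeg : Divisor.degree E = r := by rw [hE, map_add, hD', hdeg, degree_divFun, add_zero]
  have hE0 : 0 ≤ E := Finsupp.le_def.mpr fun v => by
    have := ((mem_riemannRochSpace_iff.mp hf) v).resolve_left hf0
    simp only [hE, Finsupp.zero_apply, Finsupp.add_apply, divFun_apply]
    omega
  have hr0 : r = 0 → E = 0 := fun h => eq_zero_of_nonneg_of_degree hE0 (by rw [hEdeg, h]; rfl)
  have hP : E P₀ = 0 := by
    by_contra hne
    rcases Nat.eq_zero_or_pos r with h | h
    · exact hne (by rw [hr0 h]; rfl)
    refine Nat.find_min hex (Nat.sub_one_lt_of_lt h) (Nat.pos_of_ne_zero fun hell => ?_)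
    have hmem : f ∈ riemannRochSpace ((D : Divisor K F) + Finsupp.single P₀ ((r - 1 : ℕ) : ℤ)) := by
      rw [mem_riemannRochSpace_iff]
      intro v
      refine Or.inr ?_
      have h1 := Finsupp.le_def.mp hE0 v
      simp only [Finsupp.zero_apply] at h1
      rcases eq_or_ne v P₀ with rfl | hv
      · simp only [hE, hD', Finsupp.add_apply, Finsupp.single_eq_same, divFun_apply] at hne h1 ⊢
        omega
      · simp only [hE, hD', Finsupp.add_apply, Finsupp.single_eq_of_ne hv, divFun_apply] at h1 ⊢
        omega
    rw [Submodule.finrank_eq_zero.mp hell, Submodule.mem_bot] at hmem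
    exact hf0 hmem
  have hell : ell E ≤ 1 := by
    rcases Nat.eq_zero_or_pos r with h | h
    · rw [hr0 h, ell_zero_eq_one]
    have h' : ell E = ell D' := by
      rw [← ell_sub_divFun D' (inv_ne_zero hf0), divFun_inv, sub_neg_eq_add, hE]
    rw [h']
    set D'' := (D : Divisor K F) + Finsupp.single P₀ ((r - 1 : ℕ) : ℤ)
    have h0 : ell D'' = 0 := by
      by_contra hne
      exact Nat.find_min hex (Nat.sub_one_lt_of_lt h) (Nat.pos_of_ne_zero hne)
    have hle : D'' ≤ D' :=
      add_le_add le_rfl (Finsupp.single_le_single.mpr (by omega))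
    obtain ⟨c, hc, hcle⟩ := relDim_riemannRochSpace hle
    have hsum : ell D'' + c = ell D' :=
      ((RelDim.of_bot (B := riemannRochSpace D'')).trans hc).unique
        (RelDim.of_bot (B := riemannRochSpace D'))
    rw [hdeg, hdeg] at hcle
    omega
  refine ⟨E, ⟨hE0, hP, fun E' hE' hp => ?_⟩, ?_⟩
  · obtain ⟨g, hg, hgE⟩ := isPrincipal_iff_exists_divFun.mp hp
    have hgmem : g ∈ riemannRochSpace E := by
      rw [mem_riemannRochSpace_iff]
      intro v
      have h1 := Finsupp.le_def.mp hE' v
      have h2 := DFunLike.congr_fun hgE v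
      simp only [Finsupp.sub_apply, divFun_apply, Finsupp.zero_apply] at h1 h2
      exact Or.inr (by omega)
    have h1mem : (1 : F) ∈ riemannRochSpace E := by
      rw [mem_riemannRochSpace_iff]
      intro v
      have := Finsupp.le_def.mp hE0 v
      simp only [Finsupp.zero_apply] at this
      exact Or.inr (by rw [v.ord_one]; omega)
    have hspan : riemannRochSpace E = Submodule.span K {(1 : F)} :=
      (Submodule.eq_of_le_of_finrank_le ((Submodule.span_singleton_le_iff_mem _ _).mpr h1mem)
        (by rw [finrank_span_singleton one_ne_zero]; exact hell)).symm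
    obtain ⟨c, hc⟩ := Submodule.mem_span_singleton.mp (hspan ▸ hgmem)
    refine sub_eq_zero.mp (hgE.trans (Finsupp.ext fun v => ?_))
    rw [divFun_apply, ← hc, Algebra.smul_def, mul_one, Fermat.Agent.FunctionField.ord_algebraMap]
    rfl
  · rw [mk_eq_mk_iff]
    refine isPrincipal_iff_exists_divFun.mpr ⟨f, hf0, ?_⟩
    simp only [normalised, hEdeg]
    rw [hE, hD']
    abel

end Rigid

variable {k F L F' : Type*} [Field k] [Field F] [Field L] [Field F'] [Algebra k F] [Algebra k L]
  [Algebra L F'] [Algebra F F'] [Algebra k F'] [IsScalarTower k L F'] [IsScalarTower k F F']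
  [IsConstExt k F L F'] [IsFunctionField k F] [IsFunctionField L F'] [IsAlgClosed k]
  [IsAlgClosed L] [CharZero k]

omit [CharZero k] in
theorem smul_liftPlace {g : SemilinearAut L F'}
    (hg : ∀ f : F, g • algebraMap F F' f = algebraMap F F' f) (p : Place k F) :
    g • liftPlace L F' p = liftPlace L F' p :=
  eq_liftPlace_of_ord fun f => by
    conv_lhs => rw [← hg f]
    rw [SemilinearAut.ord_smul, ord_liftPlace]

variable (k F) in
/-- Finitely many places permuted by the semilinear automorphisms are all extended from `F`. -/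
theorem exists_eq_liftPlace_of_stable {S : Set (Place L F')} (hS : S.Finite)
    (hstab : ∀ g : SemilinearAut L F', (∀ f : F, g • algebraMap F F' f = algebraMap F F' f) →
      ∀ P ∈ S, g • P ∈ S)
    {P : Place L F'} (hP : P ∈ S) : ∃ p : Place k F, P = liftPlace L F' p := by
  obtain ⟨x, hx⟩ := IsFunctionField.exists_transcendental (K := k) (F := F)
  by_cases hpole : P.ord (algebraMap F F' x) < 0
  · exact exists_eq_liftPlace k hpole.ne
  obtain ⟨a, ha⟩ := exists_value P ((FFPlaces.mem_iff P).mpr (not_lt.mp hpole))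
  have hne : ∀ c : L, algebraMap F F' x - algebraMap L F' c ≠ 0 := fun c hc => by
    have ht : Transcendental L (algebraMap F F' x) := transcendental_map (k := k) hx
    rw [sub_eq_zero.mp hc] at ht
    exact ht (isAlgebraic_algebraMap c)
  have hfin : (Set.range fun σ : L ≃ₐ[k] L => σ a).Finite := by
    refine (Set.Finite.biUnion hS fun Q _ => Set.Subsingleton.finite
      (s := {c : L | Q.adicValuation (algebraMap F F' x - algebraMap L F' c) < 1})
      fun c hc c' hc' => value_unique Q hc hc').subset ?_
    rintro _ ⟨σ, rfl⟩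
    obtain ⟨g, hgL, hgF⟩ := exists_semilinearAut k F L F' σ
    refine Set.mem_biUnion (hstab g hgF P hP) ?_
    show (g • P).adicValuation (algebraMap F F' x - algebraMap L F' (σ a)) < 1
    rw [adicValuation_lt_one_iff, or_iff_right (hne _), ← hgL, ← hgF x,
      ← SemilinearAut.smul_algebraMap, ← smul_sub, SemilinearAut.ord_smul]
    exact ((adicValuation_lt_one_iff P).mp ha).resolve_left (hne a)
  obtain ⟨c, rfl⟩ := mem_range_of_finite_orbit hfin
  refine exists_eq_liftPlace k (P := P) (f := x - algebraMap k F c) ?_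
  rw [map_sub, ← IsScalarTower.algebraMap_apply, IsScalarTower.algebraMap_apply k L F']
  exact (((adicValuation_lt_one_iff P).mp ha).resolve_left (hne _)).ne'

/-- If there are only finitely many torsion classes over `L`, all come from `k`. -/
theorem torsionMap_surjective (n : ℕ) [Finite (Pic0.torsion L F' n)] :
    Function.Surjective (torsionMap L F' n : Pic0.torsion k F n → Pic0.torsion L F' n) := by
  classical
  intro y
  obtain ⟨p₀⟩ := nonempty_place k F
  set P₀ := liftPlace L F' p₀ with hP₀
  set 𝔈 : Set (Divisor L F') :=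
    {E | IsRigid P₀ E ∧ Pic0.mk (normalised P₀ E) ∈ Pic0.torsion L F' n} with h𝔈
  have hfinE : 𝔈.Finite := by
    let cls : 𝔈 → Pic0.torsion L F' n := fun E => ⟨Pic0.mk (normalised P₀ E.1), E.2.2⟩
    have hcls : Function.Injective cls := fun E E' h =>
      Subtype.ext (E.2.1.eq_of_mk_eq E'.2.1 (congrArg Subtype.val h))
    have : Finite 𝔈 := Finite.of_injective cls hcls
    exact Set.toFinite 𝔈
  set S : Set (Place L F') := ⋃ E ∈ 𝔈, (E.support : Set (Place L F'))
  have hS : S.Finite := hfinE.biUnion fun E _ => E.support.finite_toSet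
  have hstab : ∀ g : SemilinearAut L F', (∀ f : F, g • algebraMap F F' f = algebraMap F F' f) →
      ∀ P ∈ S, g • P ∈ S := by
    intro g hg P hP
    obtain ⟨E, hE, hPE⟩ := Set.mem_iUnion₂.mp hP
    have hfix : g • P₀ = P₀ := smul_liftPlace hg p₀
    have hnorm : normalised P₀ (g • E) = SemilinearAut.degZeroSMulHom g (normalised P₀ E) := by
      refine Subtype.ext ?_
      simp only [normalised, SemilinearAut.coe_degZeroSMulHom, smul_sub,
        SemilinearAut.smul_single, SemilinearAut.degree_smul, hfix]
    refine Set.mem_iUnion₂.mpr ⟨g • E, ⟨⟨?_, ?_, fun E' hE' hp => ?_⟩, ?_⟩, ?_⟩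
    · refine Finsupp.le_def.mpr fun Q => ?_
      rw [SemilinearAut.divisor_smul_apply]
      exact Finsupp.le_def.mp hE.1.1 _
    · conv_lhs => rw [← hfix]
      rw [SemilinearAut.divisor_smul_apply_smul, hE.1.2.1]
    · have h1 := hE.1.2.2 (g⁻¹ • E') (Finsupp.le_def.mpr fun Q => by
          rw [SemilinearAut.divisor_smul_apply]
          exact Finsupp.le_def.mp hE' _) (by
        have := SemilinearAut.smul_mem_principal g⁻¹ hp
        rwa [smul_sub, inv_smul_smul] at this)
      rw [← h1, smul_inv_smul]
    · rw [hnorm, ← SemilinearAut.pic0_smul_mk]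
      exact SemilinearAut.smul_mem_torsion g hE.2
    · rw [Finset.mem_coe, Finsupp.mem_support_iff, SemilinearAut.divisor_smul_apply_smul,
        ← Finsupp.mem_support_iff]
      exact hPE
  obtain ⟨D, hD⟩ := Pic0.mk_surjective (y : Pic0 L F')
  obtain ⟨E, hErig, hEcls⟩ := exists_rigid P₀ D
  have hE : E ∈ 𝔈 := ⟨hErig, by rw [hEcls, hD]; exact y.2⟩
  have hsupp : (E.support : Set (Place L F')) ⊆ Set.range (liftPlace L F' : Place k F → _) := by
    intro P hP
    obtain ⟨p, hp⟩ := exists_eq_liftPlace_of_stable k F hS hstab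
      (Set.mem_iUnion₂.mpr ⟨E, hE, hP⟩)
    exact ⟨p, hp.symm⟩
  let E₀ : Divisor k F := E.comapDomain (liftPlace L F') liftPlace_injective.injOn
  have hlift : liftDiv L F' E₀ = E :=
    Finsupp.mapDomain_comapDomain _ liftPlace_injective E hsupp
  have hdeg : Divisor.degree E = Divisor.degree E₀ := by
    rw [← degree_liftDiv (L := L) (F' := F') E₀, hlift]
  have hy : pic0Map L F' (Pic0.mk (normalised p₀ E₀)) = (y : Pic0 L F') := by
    rw [pic0Map_mk, ← hD, ← hEcls]
    congr 1
    refine Subtype.ext ?_
    simp only [normalised, coe_liftDegZero, map_sub, liftDiv_single, hlift, hdeg, hP₀]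
  exact ⟨⟨Pic0.mk (normalised p₀ E₀), mem_torsion_of_pic0Map (L := L) (F' := F') (hy ▸ y.2)⟩,
    Subtype.ext hy⟩

/-- If the torsion of `F'` is finite, it equals that of `F`. -/
theorem natCard_torsion_eq_of_finite (n : ℕ) [Finite (Pic0.torsion L F' n)] :
    Nat.card (Pic0.torsion k F n) = Nat.card (Pic0.torsion L F' n) :=
  Nat.card_congr
    (Equiv.ofBijective (torsionMap L F' n : Pic0.torsion k F n → Pic0.torsion L F' n)
      ⟨torsionMap_injective n, torsionMap_surjective n⟩)

end Fermat.Agent.CurveBaseChange
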