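import Fermat.Agent.CurveBaseChange.Pic0Map
import Fermat.Agent.CurveBaseChange.Galois
import Fermat.Agent.CarayolReduction.DivisorBaseChange
import Fermat.Prelude.Def_AlgebraicCurve_BaseChangeGalois

/-!
# Correspondences under constant field extension

Constant field extension commutes with pullback and pushforward along morphisms, with
correspondences, and with semilinear automorphisms.
-/

set_option autoImplicit false

noncomputable section

open AlgebraicCurve
open Fermat.Agent.FunctionField

namespace Fermat.Agent.CurveBaseChange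

variable {k L : Type*} [Field k] [IsAlgClosed k] [CharZero k] [Field L] [IsAlgClosed L] [CharZero L]
  [Algebra k L]
variable {F F' E E' : Type*} [Field F] [Field F'] [Field E] [Field E']
  [Algebra k F] [Algebra L F'] [Algebra F F'] [Algebra k F'] [IsScalarTower k L F']
  [IsScalarTower k F F'] [IsConstExt k F L F'] [IsFunctionField k F] [IsFunctionField L F']
  [Algebra k E] [Algebra L E'] [Algebra E E'] [Algebra k E'] [IsScalarTower k L E']
  [IsScalarTower k E E'] [IsConstExt k E L E'] [IsFunctionField k E] [IsFunctionField L E']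

section Morphism

variable (φ : F →ₐ[k] E) (φ' : F' →ₐ[L] E')
  (hsq : ∀ x : F, φ' (algebraMap F F' x) = algebraMap E E' (φ x))
  (hφ : φ.toRingHom.IsIntegral) (hφ' : φ'.toRingHom.IsIntegral)
include hsq

omit [CharZero k] [CharZero L] in
/-- Restriction and ramification index of an extended place. -/
theorem restrictAlong_liftPlace (q : Place k E) :
    (liftPlace L E' q).restrictAlong φ' hφ' = liftPlace L F' (q.restrictAlong φ hφ) ∧
      Place.ramificationIndexAlong φ' (liftPlace L E' q) = Place.ramificationIndexAlong φ q := by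
  set p := q.restrictAlong φ hφ
  set P := (liftPlace L E' q).restrictAlong φ' hφ'
  set e := Place.ramificationIndexAlong φ q
  set e' := Place.ramificationIndexAlong φ' (liftPlace L E' q)
  have he : 0 < e := by
    let := algebraAlong φ
    have := isScalarTower_along φ
    have := isIntegral_along φ (Hecke.isIntegral_of_isFunctionField φ)
    exact q.ramificationIndex_pos (F := F)
  have key : ∀ f : F, (e : ℤ) * p.ord f = e' * P.ord (algebraMap F F' f) := fun f => by
    rw [← Place.ord_restrictAlong, ← Place.ord_restrictAlong, hsq, ord_liftPlace]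
  obtain ⟨π, -, hπ⟩ := FFPlaces.exists_uniformizer p
  have hπ' := key π
  rw [hπ, mul_one] at hπ'
  have hne : P.ord (algebraMap F F' π) ≠ 0 := fun h0 => by
    rw [h0, mul_zero] at hπ'
    omega
  obtain ⟨p₁, hp₁⟩ := exists_eq_liftPlace k (P := P) hne
  have he' : 0 < (e' : ℤ) := by
    rcases Nat.eq_zero_or_pos e' with h0 | h0
    · rw [h0, Nat.cast_zero, zero_mul] at hπ'
      omega
    · exact_mod_cast h0
  have hpp : p₁ = p := FFPlaces.ord_eq_of_le fun f hf => by
    have h := key f
    rw [hp₁, ord_liftPlace] at h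
    nlinarith
  subst hpp
  refine ⟨hp₁, ?_⟩
  rw [hp₁, ord_liftPlace, hπ, mul_one] at hπ'
  exact_mod_cast hπ'.symm

theorem pushforwardAlong_liftDiv (D : Divisor k E) :
    Divisor.pushforwardAlong φ' hφ' (liftDiv L E' D) =
      liftDiv L F' (Divisor.pushforwardAlong φ hφ D) := by
  induction D using Finsupp.induction with
  | zero => simp
  | single_add q n D _ _ ih =>
    rw [map_add, map_add, map_add, map_add, ih, liftDiv_single,
      CarayolReduction.pushforwardAlong_single', CarayolReduction.pushforwardAlong_single',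
      liftDiv_single, (restrictAlong_liftPlace φ φ' hsq hφ hφ' q).1]

omit [CharZero k] [CharZero L] in
theorem pullbackAlong_liftDiv [HasPrincipalDivisors k E] [HasPrincipalDivisors L E']
    (D : Divisor k F) :
    Divisor.pullbackAlong φ' hφ' (liftDiv L F' D) =
      liftDiv L E' (Divisor.pullbackAlong φ hφ D) := by
  ext Q
  rw [Divisor.pullbackAlong_apply]
  by_cases hQ : ∃ q : Place k E, Q = liftPlace L E' q
  · obtain ⟨q, rfl⟩ := hQ
    obtain ⟨h1, h2⟩ := restrictAlong_liftPlace φ φ' hsq hφ hφ' q
    rw [h1, h2, liftDiv_apply, liftDiv_apply, Divisor.pullbackAlong_apply]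
  · push Not at hQ
    rw [liftDiv_apply_of_notRat _ hQ]
    by_cases hP : ∃ p : Place k F, Q.restrictAlong φ' hφ' = liftPlace L F' p
    · obtain ⟨p, hp⟩ := hP
      obtain ⟨π, -, hπ⟩ := FFPlaces.exists_uniformizer p
      have h := Place.ord_restrictAlong φ' hφ' Q (algebraMap F F' π)
      rw [hp, ord_liftPlace, hπ, mul_one, hsq] at h
      by_cases h0 : Q.ord (algebraMap E E' (φ π)) = 0
      · rw [h0] at h
        rw [show (Place.ramificationIndexAlong φ' Q : ℤ) = 0 from h.symm, zero_mul]
      · obtain ⟨q, hq⟩ := exists_eq_liftPlace k h0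
        exact absurd hq (hQ q)
    · push Not at hP
      rw [liftDiv_apply_of_notRat _ hP, mul_zero]

end Morphism

/-- Constant field extension commutes with correspondences. -/
theorem correspondence_liftDiv (φ ψ : F →ₐ[k] E) (φ' ψ' : F' →ₐ[L] E')
    (hsφ : ∀ x : F, φ' (algebraMap F F' x) = algebraMap E E' (φ x))
    (hsψ : ∀ x : F, ψ' (algebraMap F F' x) = algebraMap E E' (ψ x))
    (hφ : φ.toRingHom.IsIntegral) (hψ : ψ.toRingHom.IsIntegral)
    (hφ' : φ'.toRingHom.IsIntegral) (hψ' : ψ'.toRingHom.IsIntegral)
    [HasPrincipalDivisors k E] [HasPrincipalDivisors L E'] (D : Divisor k F) :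
    Divisor.correspondence φ' ψ' hφ' hψ' (liftDiv L F' D) =
      liftDiv L F' (Divisor.correspondence φ ψ hφ hψ D) := by
  rw [Divisor.correspondence_apply, Divisor.correspondence_apply,
    pullbackAlong_liftDiv φ φ' hsφ hφ, pushforwardAlong_liftDiv ψ ψ' hsψ hψ]

/-- Constant field extension commutes with correspondences on classes of degree zero. -/
theorem pic0Map_correspondence (φ ψ : F →ₐ[k] E) (φ' ψ' : F' →ₐ[L] E')
    (hsφ : ∀ x : F, φ' (algebraMap F F' x) = algebraMap E E' (φ x))
    (hsψ : ∀ x : F, ψ' (algebraMap F F' x) = algebraMap E E' (ψ x))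
    (hφ : φ.toRingHom.IsIntegral) (hψ : ψ.toRingHom.IsIntegral)
    (hφ' : φ'.toRingHom.IsIntegral) (hψ' : ψ'.toRingHom.IsIntegral)
    [HasPrincipalDivisors k E] [HasPrincipalDivisors L E']
    (hFI : FundamentalIdentityAlong k φ hφ) (hfin : FiniteAlong k ψ)
    (hN : NormFormulaAlong k ψ hfin) (hFI' : FundamentalIdentityAlong L φ' hφ')
    (hfin' : FiniteAlong L ψ') (hN' : NormFormulaAlong L ψ' hfin') (x : Pic0 k F) :
    pic0Map L F' (Pic0.correspondence φ ψ hφ hψ hFI hfin hN x) =
      Pic0.correspondence φ' ψ' hφ' hψ' hFI' hfin' hN' (pic0Map L F' x) := by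
  obtain ⟨D, rfl⟩ := Pic0.mk_surjective x
  rw [Pic0.correspondence_mk, pic0Map_mk, pic0Map_mk, Pic0.correspondence_mk]
  exact congrArg Pic0.mk (Subtype.ext
    (correspondence_liftDiv φ ψ φ' ψ' hsφ hsψ hφ hψ hφ' hψ' (D : Divisor k F)).symm)

section Semilinear

variable (g : SemilinearAut k F) (g' : SemilinearAut L F')
  (hg : ∀ f : F, g' • algebraMap F F' f = algebraMap F F' (g • f))
include hg

omit [CharZero k] [CharZero L] in
theorem smul_liftPlace_comm (p : Place k F) :
    g' • liftPlace L F' p = liftPlace L F' (g • p) :=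
  eq_liftPlace_of_ord fun f => by
    conv_lhs => rw [← smul_inv_smul g f]
    rw [← hg, SemilinearAut.ord_smul, ord_liftPlace, ← SemilinearAut.ord_smul g p, smul_inv_smul]

omit [CharZero k] [CharZero L] in
theorem smul_liftDiv (D : Divisor k F) : g' • liftDiv L F' D = liftDiv L F' (g • D) := by
  induction D using Finsupp.induction with
  | zero => simp
  | single_add p n D _ _ ih =>
    rw [map_add, smul_add, smul_add, map_add, ih, liftDiv_single, SemilinearAut.smul_single,
      SemilinearAut.smul_single, liftDiv_single, smul_liftPlace_comm g g' hg]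

omit [CharZero k] [CharZero L] in
/-- Constant field extension commutes with semilinear automorphisms. -/
theorem pic0Map_smul (x : Pic0 k F) : pic0Map L F' (g • x) = g' • pic0Map L F' x := by
  obtain ⟨D, rfl⟩ := Pic0.mk_surjective x
  rw [SemilinearAut.pic0_smul_mk, pic0Map_mk, pic0Map_mk, SemilinearAut.pic0_smul_mk]
  exact congrArg Pic0.mk (Subtype.ext (smul_liftDiv g g' hg (D : Divisor k F)).symm)

end Semilinear

end Fermat.Agent.CurveBaseChange
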