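import Mathlib.FieldTheory.IsAlgClosed.Classification
import Mathlib.RingTheory.AlgebraicIndependent.TranscendenceBasis
import Mathlib.Analysis.Complex.Polynomial.Basic
import Mathlib.Analysis.Complex.Cardinality

/-!
# Countable subfields and embeddings into `ℂ`

Countable fields of characteristic zero embed into `ℂ`, and a finite subset of an algebraically
closed field lies in a countable algebraically closed subfield.
-/

set_option autoImplicit false

noncomputable section

open Cardinal

namespace Fermat.Agent.CurveBaseChange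

/-- A countable field of characteristic zero embeds into `ℂ`. -/
theorem exists_ringHom_complex (k : Type*) [Field k] [CharZero k] [Countable k] :
    Nonempty (k →+* ℂ) := by
  obtain ⟨s, hs⟩ := exists_isTranscendenceBasis ℚ k
  obtain ⟨t, ht⟩ := exists_isTranscendenceBasis ℚ ℂ
  have hC : ℵ₀ < #ℂ := by rw [Cardinal.mk_complex]; exact Cardinal.aleph0_lt_continuum
  have htc := IsAlgClosed.cardinal_eq_cardinal_transcendence_basis_of_aleph0_lt' _ ht
    (Cardinal.mk_le_aleph0 (α := ℚ)) hC
  have hle : lift.{0} #s ≤ lift #t := by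
    refine le_trans ?_ (aleph0_le_lift.mpr (htc ▸ hC.le))
    rw [Cardinal.lift_id']
    exact Cardinal.mk_le_aleph0
  obtain ⟨j⟩ := Cardinal.lift_mk_le'.mp hle
  let A := Algebra.adjoin ℚ (Set.range ((↑) : s → k))
  have : Algebra.IsAlgebraic A k := hs.isAlgebraic
  let φ : A →ₐ[ℚ] ℂ :=
    (MvPolynomial.aeval fun i => ((j i : t) : ℂ)).comp hs.1.aevalEquiv.symm.toAlgHom
  have hinj : Function.Injective
      (MvPolynomial.aeval fun i => ((j i : t) : ℂ) : MvPolynomial s ℚ →ₐ[ℚ] ℂ) :=
    algebraicIndependent_iff_injective_aeval.mp (ht.1.comp j j.injective)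
  have hφ : Function.Injective φ := by
    show Function.Injective ((MvPolynomial.aeval fun i => ((j i : t) : ℂ)) ∘ hs.1.aevalEquiv.symm)
    exact hinj.comp hs.1.aevalEquiv.symm.injective
  let : Algebra A ℂ := φ.toRingHom.toAlgebra
  have : FaithfulSMul A ℂ := (faithfulSMul_iff_algebraMap_injective _ _).mpr hφ
  exact ⟨(IsAlgClosed.lift (R := A) (S := k) (M := ℂ)).toRingHom⟩

/-- A finite set lies in a countable algebraically closed subfield. -/
theorem exists_countable_isAlgClosed {K : Type*} [Field K] [CharZero K] [IsAlgClosed K]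
    (T : Finset K) :
    ∃ k : IntermediateField ℚ K, (T : Set K) ⊆ k ∧ Countable k ∧ IsAlgClosed k := by
  let A : IntermediateField ℚ K := IntermediateField.adjoin ℚ (T : Set K)
  refine ⟨(algebraicClosure A K).restrictScalars ℚ, fun a ha => ?_, ?_,
    (algebraicClosure.isAlgClosure A K).isAlgClosed⟩
  · exact (algebraicClosure A K).algebraMap_mem ⟨a, IntermediateField.subset_adjoin ℚ _ ha⟩
  · have hA : lift.{0} #A ≤ ℵ₀ := by
      refine (IntermediateField.lift_cardinalMk_adjoin_le ℚ (T : Set K)).trans ?_
      simp
    have h := Algebra.IsAlgebraic.cardinalMk_le_max A (algebraicClosure A K)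
    rw [Cardinal.lift_id'] at hA
    exact Cardinal.mk_le_aleph0_iff.mp (h.trans (max_le hA le_rfl))

end Fermat.Agent.CurveBaseChange
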