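import Fermat.Agent.CurveBaseChange.Basic
import Mathlib.FieldTheory.PrimitiveElement
import Mathlib.RingTheory.PowerBasis
import Mathlib.LinearAlgebra.Dual.Lemmas

/-!
# Models over smaller constant fields

A function field is a constant field extension of a function field over any algebraically closed
subfield containing finitely many given constants.
-/

set_option autoImplicit false

noncomputable section

open AlgebraicCurve IntermediateField
open Fermat.Agent.FunctionField

namespace Fermat.Agent.CurveBaseChange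

variable {k K F : Type*} [Field k] [Field K] [Field F] [Algebra k K] [Algebra K F] [Algebra k F]
  [IsScalarTower k K F]

theorem transcendental_restrict {x : F} (hx : Transcendental K x) : Transcendental k x :=
  fun h => hx (h.extendScalars (algebraMap k K).injective)

/-- A family in the `k`-span of a `K`-independent family stays independent over `K`. -/
theorem linearIndependent_extendScalars {ι : Type*} [Fintype ι] {m : ℕ} {B : ι → F}
    (hB : LinearIndependent K B) {h : Fin m → F} (hh : LinearIndependent k h)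
    (c : Fin m → ι → k) (hc : ∀ i, h i = ∑ l, c i l • B l) : LinearIndependent K h := by
  classical
  rw [Fintype.linearIndependent_iff] at hB hh ⊢
  intro α hα
  have h1 : ∀ l, ∑ i, c i l • α i = 0 := by
    refine hB (fun l => ∑ i, c i l • α i) ?_
    rw [← hα]
    simp only [hc, Finset.smul_sum, Finset.sum_smul]
    rw [Finset.sum_comm]
    exact Finset.sum_congr rfl fun i _ => Finset.sum_congr rfl fun l _ => by
      rw [smul_assoc, smul_comm]
  intro i
  rw [← Module.forall_dual_apply_eq_zero_iff k]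
  intro φ
  refine hh (fun j => φ (α j)) ?_ i
  simp only [hc, Finset.smul_sum, smul_smul]
  rw [Finset.sum_comm]
  refine Finset.sum_eq_zero fun l _ => ?_
  rw [← Finset.sum_smul]
  have h2 := congrArg φ (h1 l)
  rw [map_sum, map_zero] at h2
  simp only [map_smul, smul_eq_mul, mul_comm (c _ l)] at h2
  rw [h2, zero_smul]

/-- The `k`-form `k(x, y)` of `K(x, y)`. -/
def modelField (k : Type*) [Field k] [Algebra k F] (x y : F) : IntermediateField k F :=
  (k⟮x⟯⟮y⟯).restrictScalars k

theorem mem_modelField_left (x y : F) : x ∈ modelField k x y :=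
  (k⟮x⟯⟮y⟯).algebraMap_mem ⟨x, mem_adjoin_simple_self k x⟩

theorem mem_modelField_right (x y : F) : y ∈ modelField k x y :=
  mem_adjoin_simple_self k⟮x⟯ y

theorem isFunctionField_modelField {x y : F} (hx : Transcendental K x)
    (hy : IsIntegral k⟮x⟯ y) : IsFunctionField k (modelField k x y) := by
  let M := k⟮x⟯⟮y⟯
  have : FiniteDimensional k⟮x⟯ M := adjoin.finiteDimensional hy
  have : IsScalarTower k M F := IsScalarTower.of_algebraMap_eq fun _ => rfl
  let x' : M := algebraMap k⟮x⟯ M ⟨x, mem_adjoin_simple_self k x⟩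
  have hx' : Transcendental k x' := by
    have h := transcendental_restrict (k := k) hx
    intro halg
    exact h (halg.algebraMap (A := F))
  have : Algebra.EssFiniteType k k⟮x⟯ :=
    essFiniteType_iff.mpr (fg_adjoin_of_finite (Set.finite_singleton x))
  have : Algebra.EssFiniteType k M := Algebra.EssFiniteType.comp k k⟮x⟯ M
  have hmem : ∀ c : k⟮x⟯, algebraMap k⟮x⟯ M c ∈ k⟮x'⟯ := by
    intro c
    obtain ⟨r, s, hc⟩ := (mem_adjoin_simple_iff k (c : F)).mp c.2
    refine (mem_adjoin_simple_iff k _).mpr ⟨r, s, Subtype.ext ?_⟩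
    show algebraMap k⟮x⟯ F c = algebraMap M F (_ / _)
    rw [map_div₀, ← Polynomial.aeval_algebraMap_apply, ← Polynomial.aeval_algebraMap_apply]
    exact hc
  have : Algebra.IsAlgebraic k⟮x'⟯ M := by
    let : Algebra k⟮x⟯ k⟮x'⟯ := ((algebraMap k⟮x⟯ M).codRestrict _ hmem).toAlgebra
    have : IsScalarTower k⟮x⟯ k⟮x'⟯ M := IsScalarTower.of_algebraMap_eq fun _ => rfl
    exact ⟨fun z => (Algebra.IsAlgebraic.isAlgebraic (R := k⟮x⟯) z).extendScalars
      (algebraMap k⟮x⟯ k⟮x'⟯).injective⟩
  exact (isFunctionField_of_trdeg_one (trdeg_eq_one_of_isAlgebraic hx') : IsFunctionField k M)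

theorem isConstExt_modelField {x y : F} (hx : Transcendental K x)
    (hy : IsIntegral k⟮x⟯ y) (hgen : K⟮x⟯⟮y⟯ = ⊤)
    (hdeg : (minpoly k⟮x⟯ y).natDegree ≤ (minpoly K⟮x⟯ y).natDegree) :
    IsConstExt k (modelField k x y) K F := by
  classical
  refine ⟨fun {m} g hg => ?_, ?_⟩
  · set d := (minpoly k⟮x⟯ y).natDegree
    have hspan : ∀ i, ∃ a : Fin d → k⟮x⟯, (g i : F) = ∑ j, a j • y ^ (j : ℕ) := by
      intro i
      have h1 : (g i : F) ∈ Submodule.span k⟮x⟯ (Set.range fun j : Fin d => y ^ (j : ℕ)) := by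
        have h2 : (g i : F) ∈ Subalgebra.toSubmodule (Algebra.adjoin k⟮x⟯ {y}) := by
          rw [Subalgebra.mem_toSubmodule, ← adjoin_simple_toSubalgebra_of_isAlgebraic hy.isAlgebraic]
          exact (g i).2
        rw [← Submodule.span_range_natDegree_eq_adjoin (minpoly.monic hy) (minpoly.aeval _ _)] at h2
        refine Submodule.span_mono ?_ h2
        intro z hz
        simp only [Finset.coe_image, Finset.coe_range, Set.mem_image, Set.mem_Iio] at hz
        obtain ⟨j, hj, rfl⟩ := hz
        exact ⟨⟨j, hj⟩, rfl⟩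
      obtain ⟨a, ha⟩ := (Submodule.mem_span_range_iff_exists_fun k⟮x⟯).mp h1
      exact ⟨a, ha.symm⟩
    choose a ha using hspan
    obtain ⟨q, hq, hp⟩ := exists_common_denominator (K := k) Finset.univ x
      (fun ij : Fin m × Fin d => (a ij.1 ij.2 : F)) fun ij _ => (a ij.1 ij.2).2
    choose p hp using fun i j => hp (i, j) (Finset.mem_univ _)
    set N := Finset.univ.sup (fun ij : Fin m × Fin d => (p ij.1 ij.2).natDegree) + 1
    let gen : K⟮x⟯ := ⟨x, mem_adjoin_simple_self K x⟩
    have hgenli : LinearIndependent K fun e : Fin N => gen ^ (e : ℕ) := by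
      refine LinearIndependent.of_comp K⟮x⟯.val.toLinearMap ?_
      exact (Fermat.Agent.FunctionField.linearIndependent_pow hx).comp _ Fin.val_injective
    have hB := linearIndependent_smul hgenli
      ((_root_.linearIndependent_pow (K := K⟮x⟯) y).comp (Fin.castLE hdeg) (Fin.castLE_injective hdeg))
    let M' : F →ₗ[k] F := LinearMap.mulLeft k (Polynomial.aeval x q)
    have hG : LinearIndependent k fun i => Polynomial.aeval x q * (g i : F) :=
      (hg.map' (modelField k x y).val.toLinearMap
        (LinearMap.ker_eq_bot.mpr Subtype.val_injective)).map' M'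
        (LinearMap.ker_eq_bot.mpr fun u v h => mul_left_cancel₀ hq h)
    have hGK := linearIndependent_extendScalars hB hG
      (fun i l => (p i l.2).coeff l.1) fun i => by
      rw [ha i, Finset.mul_sum, Fintype.sum_prod_type, Finset.sum_comm]
      refine Finset.sum_congr rfl fun j _ => ?_
      have hN : (p i j).natDegree < N := Nat.lt_succ_of_le
        (Finset.le_sup (f := fun ij : Fin m × Fin d => (p ij.1 ij.2).natDegree)
          (Finset.mem_univ (i, j)))
      rw [IntermediateField.smul_def, smul_eq_mul, ← mul_assoc, mul_comm (Polynomial.aeval x q),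
        hp, Polynomial.aeval_eq_sum_range' hN, Finset.sum_mul,
        ← Fin.sum_univ_eq_sum_range (fun e => (p i j).coeff e • x ^ e * y ^ (j : ℕ))]
      refine Finset.sum_congr rfl fun e _ => ?_
      simp [gen, IntermediateField.smul_def]
    let e' : F →ₗ[K] F := LinearMap.mulLeft K (Polynomial.aeval x q)
    exact LinearIndependent.of_comp e' hGK
  · rw [eq_top_iff]
    intro z _
    have hz : z ∈ (K⟮x⟯⟮y⟯).restrictScalars K := by
      rw [hgen]
      exact IntermediateField.mem_top
    rw [adjoin_adjoin_left] at hz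
    refine adjoin.mono K _ _ ?_ hz
    rintro w (rfl | rfl)
    · exact ⟨⟨w, mem_modelField_left w y⟩, rfl⟩
    · exact ⟨⟨w, mem_modelField_right x w⟩, rfl⟩

variable (K F) in
/-- Spreading out to any algebraically closed subfield with enough constants. -/
theorem exists_model [IsFunctionField K F] [CharZero K] :
    ∃ (x : F) (_ : Transcendental K x) (T : Finset K), ∀ k₀ : IntermediateField ℚ K, ↑T ⊆ (k₀ : Set K) →
      ∃ F₀ : IntermediateField k₀ F, x ∈ F₀ ∧ IsFunctionField k₀ F₀ ∧ IsConstExt k₀ F₀ K F := by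
  classical
  obtain ⟨x, hx⟩ := IsFunctionField.exists_transcendental (K := K) (F := F)
  have := IsFunctionField.finiteDimensional_adjoin x hx
  have : CharZero K⟮x⟯ := charZero_of_injective_algebraMap (algebraMap K K⟮x⟯).injective
  obtain ⟨y, hy⟩ := Field.exists_primitive_element K⟮x⟯ F
  set μ := minpoly K⟮x⟯ y
  choose r s hrs using fun i => (mem_adjoin_simple_iff K ((μ.coeff i : K⟮x⟯) : F)).mp (μ.coeff i).2
  refine ⟨x, hx, (Finset.range (μ.natDegree + 1)).biUnion fun i => (r i).coeffs ∪ (s i).coeffs,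
    fun k₀ hT => ?_⟩
  have hle : ∀ i, i ≤ μ.natDegree → ((μ.coeff i : K⟮x⟯) : F) ∈ k₀⟮x⟯ := by
    intro i hi
    have hl : ∀ P : Polynomial K, (∀ c ∈ P.coeffs, c ∈ k₀) →
        Polynomial.aeval x P ∈ k₀⟮x⟯ := by
      intro P hP
      rw [Polynomial.aeval_eq_sum_range]
      refine sum_mem fun e _ => ?_
      rw [Algebra.smul_def]
      refine mul_mem ?_ (pow_mem (mem_adjoin_simple_self _ x) e)
      rcases eq_or_ne (P.coeff e) 0 with h0 | h0
      · rw [h0, map_zero]; exact zero_mem _
      · exact k₀⟮x⟯.algebraMap_mem ⟨_, hP _ (Polynomial.coeff_mem_coeffs h0)⟩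
    rw [hrs i]
    refine div_mem (hl _ fun c hc => ?_) (hl _ fun c hc => ?_)
    all_goals
      refine hT (Finset.mem_biUnion.mpr ⟨i, Finset.mem_range.mpr (Nat.lt_succ_of_le hi), ?_⟩)
    · exact Finset.mem_union_left _ hc
    · exact Finset.mem_union_right _ hc
  let incl : k₀⟮x⟯ →+* K⟮x⟯ :=
    (algebraMap k₀⟮x⟯ F).codRestrict K⟮x⟯ fun c => by
      have : k₀⟮x⟯ ≤ K⟮x⟯.restrictScalars k₀ := by
        rw [adjoin_simple_le_iff]
        exact mem_adjoin_simple_self K x
      exact this c.2
  let : Algebra k₀⟮x⟯ K⟮x⟯ := incl.toAlgebra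
  have : IsScalarTower k₀⟮x⟯ K⟮x⟯ F := IsScalarTower.of_algebraMap_eq fun _ => rfl
  have hlift : μ ∈ Polynomial.lifts (algebraMap k₀⟮x⟯ K⟮x⟯) := by
    rw [Polynomial.lifts_iff_coeff_lifts]
    intro i
    by_cases hi : i ≤ μ.natDegree
    · exact ⟨⟨_, hle i hi⟩, rfl⟩
    · exact ⟨0, by rw [map_zero, Polynomial.coeff_eq_zero_of_natDegree_lt (not_le.mp hi)]⟩
  obtain ⟨μ₀, hμ₀, hnd, hmon⟩ := Polynomial.lifts_and_natDegree_eq_and_monic hlift
    (minpoly.monic (Algebra.IsIntegral.isIntegral y))
  have hroot : Polynomial.aeval y μ₀ = 0 := by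
    rw [← Polynomial.aeval_map_algebraMap K⟮x⟯, hμ₀]
    exact minpoly.aeval _ _
  have hyint : IsIntegral k₀⟮x⟯ y := ⟨μ₀, hmon, hroot⟩
  have hdeg : (minpoly k₀⟮x⟯ y).natDegree ≤ μ.natDegree :=
    hnd ▸ Polynomial.natDegree_le_natDegree (minpoly.min _ _ hmon hroot)
  exact ⟨modelField k₀ x y, mem_modelField_left x y, isFunctionField_modelField hx hyint,
    isConstExt_modelField hx hyint hy hdeg⟩

end Fermat.Agent.CurveBaseChange
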