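import Fermat.Agent.CurveBaseChange.Galois
import Fermat.Agent.CurveBaseChange.Model
import Fermat.Agent.CurveBaseChange.Complex

/-!
# Torsion of `Pic⁰` over algebraically closed fields of characteristic zero

The count over `ℂ` implies the count over every algebraically closed field of characteristic zero.
-/

set_option autoImplicit false

noncomputable section

open AlgebraicCurve IntermediateField
open Fermat.Agent.FunctionField

namespace Fermat.Agent.CurveBaseChange

universe u v

/-- The torsion count over `ℂ`. -/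
def ComplexTorsionCount : Prop :=
  ∀ (F : Type v) [Field F] [Algebra ℂ F] [IsCurveOver ℂ F] [Algebra.EssFiniteType ℂ F] (n : ℕ),
    0 < n → Nat.card (Pic0.torsion ℂ F n) = n ^ (2 * genusFF ℂ F)

variable (hC : ComplexTorsionCount.{v})
include hC

theorem natCard_torsion_of_countable (k : Type u) (F : Type v) [Field k] [IsAlgClosed k]
    [CharZero k] [Countable k] [Field F] [Algebra k F] [IsFunctionField k F] (n : ℕ) (hn : 0 < n) :
    Nat.card (Pic0.torsion k F n) = n ^ (2 * genusFF k F) := by
  obtain ⟨φ⟩ := exists_ringHom_complex k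
  let : Algebra k ℂ := φ.toAlgebra
  have := isDomain_tensorProduct k F ℂ
  let : Algebra F (ConstExtField k F ℂ) := (constExtHom k F ℂ).toAlgebra
  have := constExt_tower k F ℂ
  have := isConstExt_constExtField k F ℂ
  have := isFunctionField k F ℂ (ConstExtField k F ℂ)
  have : IsCurveOver ℂ (ConstExtField k F ℂ) := FunctionField.isCurveOver
  have : Algebra.EssFiniteType ℂ (ConstExtField k F ℂ) := FunctionField.essFiniteType
  have h := hC (ConstExtField k F ℂ) n hn
  have : Finite (Pic0.torsion ℂ (ConstExtField k F ℂ) n) :=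
    Nat.finite_of_card_ne_zero (h ▸ pow_ne_zero _ hn.ne')
  rw [natCard_torsion_eq_of_finite (L := ℂ) (F' := ConstExtField k F ℂ) n, h,
    genusFF_eq k F ℂ (ConstExtField k F ℂ)]

variable {K : Type u} {F : Type v} [Field K] [IsAlgClosed K] [CharZero K] [Field F] [Algebra K F]
  [IsFunctionField K F]

theorem card_le_of_finset (n : ℕ) (hn : 0 < n) (S : Finset (Pic0.torsion K F n)) :
    S.card ≤ n ^ (2 * genusFF K F) := by
  classical
  obtain ⟨x, hx, T, hT⟩ := exists_model K F
  choose D hD using fun y : Pic0.torsion K F n => Pic0.mk_surjective (y : Pic0 K F)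
  set P : Finset (Place K F) := S.biUnion fun y => (D y : Divisor K F).support
  have hval : ∀ v : Place K F, ∃ a : K, 0 ≤ v.ord x → 0 < v.ord (x - algebraMap K F a) := by
    intro v
    by_cases h : 0 ≤ v.ord x
    · obtain ⟨a, ha⟩ := exists_value v ((FFPlaces.mem_iff v).mpr h)
      refine ⟨a, fun _ => ((adicValuation_lt_one_iff v).mp ha).resolve_left ?_⟩
      intro h0
      rw [sub_eq_zero.mp h0] at hx
      exact hx (isAlgebraic_algebraMap a)
    · exact ⟨0, fun h' => absurd h' h⟩
  choose a ha using hval
  obtain ⟨k, hkT, hkc, hkA⟩ := exists_countable_isAlgClosed (T ∪ P.image a)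
  obtain ⟨F₀, hxF, hF, hE⟩ := hT k fun z hz => hkT (Finset.mem_union_left _ hz)
  have hsupp : ∀ y ∈ S, ((D y : Divisor K F).support : Set (Place K F))
      ⊆ Set.range (liftPlace K F : Place k F₀ → Place K F) := by
    intro y hy v hv
    have hvP : v ∈ P := Finset.mem_biUnion.mpr ⟨y, hy, hv⟩
    by_cases h : 0 ≤ v.ord x
    · let c : k := ⟨a v, hkT (Finset.mem_union_right _ (Finset.mem_image_of_mem _ hvP))⟩
      obtain ⟨p, hp⟩ := exists_eq_liftPlace (k : IntermediateField ℚ K) (P := v)
        (f := (⟨x, hxF⟩ : F₀) - algebraMap k F₀ c) (by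
          rw [map_sub, ← IsScalarTower.algebraMap_apply]
          exact (ha v h).ne')
      exact ⟨p, hp.symm⟩
    · obtain ⟨p, hp⟩ := exists_eq_liftPlace (k : IntermediateField ℚ K) (P := v)
        (f := (⟨x, hxF⟩ : F₀)) (ne_of_lt (not_le.mp h))
      exact ⟨p, hp.symm⟩
  have hN := natCard_torsion_of_countable hC k F₀ n hn
  have : Finite (Pic0.torsion k F₀ n) :=
    Nat.finite_of_card_ne_zero (hN ▸ pow_ne_zero _ hn.ne')
  have := Fintype.ofFinite (Pic0.torsion k F₀ n)
  have hsub : S ⊆ Finset.univ.image (torsionMap K F n : Pic0.torsion k F₀ n → _) := by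
    intro y hy
    let D₀ : Divisor k F₀ :=
      (D y : Divisor K F).comapDomain (liftPlace K F) liftPlace_injective.injOn
    have hlift : liftDiv K F D₀ = (D y : Divisor K F) :=
      Finsupp.mapDomain_comapDomain _ liftPlace_injective _ (hsupp y hy)
    have hd : D₀ ∈ Divisor.degZero (K := k) (F := F₀) := by
      rw [Divisor.mem_degZero, ← degree_liftDiv (L := K) (F' := F) D₀, hlift]
      exact Divisor.mem_degZero.mp (D y).2
    have hy' : pic0Map K F (Pic0.mk ⟨D₀, hd⟩) = (y : Pic0 K F) := by
      rw [pic0Map_mk, ← hD y]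
      exact congrArg Pic0.mk (Subtype.ext hlift)
    exact Finset.mem_image.mpr ⟨⟨_, mem_torsion_of_pic0Map (L := K) (F' := F) (hy' ▸ y.2)⟩,
      Finset.mem_univ _, Subtype.ext hy'⟩
  refine (Finset.card_le_card hsub).trans (Finset.card_image_le.trans ?_)
  rw [Finset.card_univ, ← Nat.card_eq_fintype_card, hN, genusFF_eq k F₀ K F]

/-- The torsion count over any algebraically closed field of characteristic zero. -/
theorem natCard_torsion_eq (n : ℕ) (hn : 0 < n) :
    Nat.card (Pic0.torsion K F n) = n ^ (2 * genusFF K F) := by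
  have : Finite (Pic0.torsion K F n) := by
    refine not_infinite_iff_finite.mp fun hinf => ?_
    obtain ⟨S, hS⟩ := Infinite.exists_subset_card_eq (Pic0.torsion K F n)
      (n ^ (2 * genusFF K F) + 1)
    have := card_le_of_finset hC n hn S
    omega
  obtain ⟨x, -, T, hT⟩ := exists_model K F
  obtain ⟨k, hkT, hkc, hkA⟩ := exists_countable_isAlgClosed T
  obtain ⟨F₀, -, hF, hE⟩ := hT k hkT
  rw [← natCard_torsion_eq_of_finite (k := k) (F := F₀) n,
    natCard_torsion_of_countable hC k F₀ n hn, genusFF_eq k F₀ K F]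

end Fermat.Agent.CurveBaseChange
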