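import Fermat.Agent.CurveBaseChange.RRSpace

/-!
# Divisor classes under constant field extension

The map `Pic⁰(F) → Pic⁰(F')` and its injectivity.
-/

set_option autoImplicit false

noncomputable section

open AlgebraicCurve IntermediateField
open Fermat.Agent.FunctionField

namespace Fermat.Agent.CurveBaseChange

/-- The principal divisors are the divisors of nonzero functions. -/
theorem isPrincipal_iff_exists_divFun {K F : Type*} [Field K] [Field F] [Algebra K F]
    [IsFunctionField K F] {D : Divisor K F} :
    D ∈ Divisor.principal (K := K) (F := F) ↔ ∃ f : F, f ≠ 0 ∧ D = divFun K f := by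
  constructor
  · rintro ⟨f, hf, h⟩
    exact ⟨f, hf, Finsupp.ext fun v => by rw [h, divFun_apply]⟩
  · rintro ⟨f, hf, rfl⟩
    exact ⟨f, hf, fun v => divFun_apply f v⟩

/-- An effective divisor of degree zero is zero. -/
theorem eq_zero_of_nonneg_of_degree {K F : Type*} [Field K] [Field F] [Algebra K F]
    [IsFunctionField K F] [IsAlgClosed K] {D : Divisor K F} (h : 0 ≤ D)
    (hd : Divisor.degree D = 0) : D = 0 := by
  classical
  by_contra hne
  obtain ⟨v, hv⟩ := Finsupp.ne_iff.mp hne
  have h1 : Finsupp.single v (D v) ≤ D := Finsupp.le_def.mpr fun w => by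
    rcases eq_or_ne w v with rfl | hwv
    · rw [Finsupp.single_eq_same]
    · rw [Finsupp.single_eq_of_ne hwv]
      simpa using Finsupp.le_def.mp h w
  have h2 := degree_mono h1
  rw [Divisor.degree_single, deg_eq_one v, hd, Nat.cast_one, mul_one] at h2
  have h3 : 0 ≤ D v := by simpa using Finsupp.le_def.mp h v
  simp only [Finsupp.zero_apply] at hv
  omega

variable {k F L F' : Type*} [Field k] [Field F] [Field L] [Field F'] [Algebra k F] [Algebra k L]
  [Algebra L F'] [Algebra F F'] [Algebra k F'] [IsScalarTower k L F'] [IsScalarTower k F F']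
  [IsConstExt k F L F'] [IsFunctionField k F] [IsFunctionField L F'] [IsAlgClosed k]
  [IsAlgClosed L] [CharZero k]

variable (L F') in
/-- Extension of degree zero divisors. -/
def liftDegZero : Divisor.degZero (K := k) (F := F) →+ Divisor.degZero (K := L) (F := F') :=
  ((liftDiv L F').comp (Divisor.degZero (K := k) (F := F)).subtype).codRestrict _ fun D => by
    rw [Divisor.mem_degZero]
    exact (degree_liftDiv (D : Divisor k F)).trans (Divisor.mem_degZero.mp D.2)

omit [CharZero k] in
/-- `liftDegZero` is `liftDiv` on the underlying divisors. -/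
@[simp]
theorem coe_liftDegZero (D : Divisor.degZero (K := k) (F := F)) :
    (liftDegZero L F' D : Divisor L F') = liftDiv L F' (D : Divisor k F) := rfl

omit [CharZero k] in
theorem liftDiv_mem_principal {D : Divisor k F} (hD : D ∈ Divisor.principal (K := k) (F := F)) :
    liftDiv L F' D ∈ Divisor.principal (K := L) (F := F') := by
  obtain ⟨f, hf, rfl⟩ := isPrincipal_iff_exists_divFun.mp hD
  exact isPrincipal_iff_exists_divFun.mpr ⟨algebraMap F F' f, by simpa using hf, liftDiv_divFun f⟩

theorem mem_principal_of_liftDiv {D : Divisor k F} (hd : Divisor.degree D = 0)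
    (hD : liftDiv L F' D ∈ Divisor.principal (K := L) (F := F')) :
    D ∈ Divisor.principal (K := k) (F := F) := by
  obtain ⟨g, hg, hD⟩ := isPrincipal_iff_exists_divFun.mp hD
  have hmem : g⁻¹ ∈ riemannRochSpace (liftDiv L F' D) := by
    rw [mem_riemannRochSpace_iff]
    intro v
    rw [hD, divFun_apply, v.ord_inv]
    exact Or.inr le_rfl
  have hpos : 0 < ell D := by
    rw [← ell_liftDiv (L := L) (F' := F') D]
    refine Nat.pos_of_ne_zero fun h0 => ?_
    have hbot := Submodule.finrank_eq_zero.mp h0
    rw [hbot, Submodule.mem_bot] at hmem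
    exact inv_ne_zero hg hmem
  obtain ⟨f, hf, hf0⟩ := exists_ne_zero_mem_of_ell_pos hpos
  have h0 : D + divFun k f = 0 := by
    refine eq_zero_of_nonneg_of_degree (Finsupp.le_def.mpr fun v => ?_)
      (by rw [map_add, hd, degree_divFun, add_zero])
    have := ((mem_riemannRochSpace_iff.mp hf) v).resolve_left hf0
    simp only [Finsupp.zero_apply, Finsupp.add_apply, divFun_apply]
    omega
  rw [eq_neg_of_add_eq_zero_left h0]
  exact neg_mem (isPrincipal_iff_exists_divFun.mpr ⟨f, hf0, rfl⟩)

variable (L F') in
/-- Extension of divisor classes of degree zero. -/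
def pic0Map : Pic0 k F →+ Pic0 L F' :=
  QuotientAddGroup.map _ _ (liftDegZero L F') fun D hD => by
    rw [AddSubgroup.mem_comap, AddSubgroup.mem_addSubgroupOf]
    exact liftDiv_mem_principal hD

omit [CharZero k] in
/-- `pic0Map` sends the class of a divisor to the class of its extension. -/
@[simp]
theorem pic0Map_mk (D : Divisor.degZero (K := k) (F := F)) :
    pic0Map L F' (Pic0.mk D) = Pic0.mk (liftDegZero L F' D) := rfl

/-- Extension of constants is injective on divisor classes of degree zero. -/
theorem pic0Map_injective : Function.Injective (pic0Map L F' : Pic0 k F →+ Pic0 L F') := by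
  rw [injective_iff_map_eq_zero]
  intro x hx
  obtain ⟨D, rfl⟩ := Pic0.mk_surjective x
  rw [pic0Map_mk] at hx
  refine (QuotientAddGroup.eq_zero_iff D).mpr ?_
  rw [AddSubgroup.mem_addSubgroupOf]
  have h := (QuotientAddGroup.eq_zero_iff (liftDegZero L F' D)).mp hx
  rw [AddSubgroup.mem_addSubgroupOf, coe_liftDegZero] at h
  exact mem_principal_of_liftDiv (Divisor.mem_degZero.mp D.2) h

omit [CharZero k] in
theorem pic0Map_mem_torsion {n : ℕ} {x : Pic0 k F} (hx : x ∈ Pic0.torsion k F n) :
    pic0Map L F' x ∈ Pic0.torsion L F' n := by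
  rw [Pic0.mem_torsion] at hx ⊢
  rw [← map_zsmul, hx, map_zero]

/-- A class whose extension is killed by `n` is itself killed by `n`. -/
theorem mem_torsion_of_pic0Map {n : ℕ} {x : Pic0 k F}
    (hx : pic0Map L F' x ∈ Pic0.torsion L F' n) : x ∈ Pic0.torsion k F n := by
  rw [Pic0.mem_torsion] at hx ⊢
  exact pic0Map_injective (L := L) (F' := F') (by rw [map_zsmul, hx, map_zero])

variable (L F') in
/-- Extension of torsion classes. -/
def torsionMap (n : ℕ) : Pic0.torsion k F n → Pic0.torsion L F' n :=
  fun x => ⟨pic0Map (k := k) (F := F) L F' x, pic0Map_mem_torsion (k := k) (F := F) x.2⟩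

/-- Extension of torsion classes is injective. -/
theorem torsionMap_injective (n : ℕ) :
    Function.Injective (torsionMap L F' n : Pic0.torsion k F n → Pic0.torsion L F' n) :=
  fun _ _ h => Subtype.ext (pic0Map_injective (k := k) (L := L) (F' := F') (congrArg Subtype.val h))

end Fermat.Agent.CurveBaseChange
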