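import Fermat.Agent.FunctionField.Curve

/-!
# Constant field extensions

`IsConstExt k F L F'` says that `F'/L` is the extension to `L` of the constant field `k` of the
function field `F/k`. Transcendence and degrees are preserved.
-/

set_option autoImplicit false

noncomputable section

open AlgebraicCurve IntermediateField
open Fermat.Agent.FunctionField

namespace Fermat.Agent.CurveBaseChange

variable (k F L F' : Type*) [Field k] [Field F] [Field L] [Field F'] [Algebra k F] [Algebra k L]
  [Algebra L F'] [Algebra F F'] [Algebra k F'] [IsScalarTower k L F'] [IsScalarTower k F F']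

/-- `F'` is the extension of the constant field `k` of `F` to `L`: `F` and `L` are linearly
disjoint over `k` inside `F'` and generate it. -/
class IsConstExt : Prop where
  linearIndependent : ∀ {n : ℕ} (g : Fin n → F), LinearIndependent k g →
    LinearIndependent L fun i => algebraMap F F' (g i)
  adjoin_eq_top : IntermediateField.adjoin L (Set.range (algebraMap F F')) = ⊤

variable {k F L F'}
variable [IsConstExt k F L F']

omit [Algebra k L] [Algebra k F'] [IsScalarTower k L F'] [IsScalarTower k F F'] in
/-- A family of `F` independent over `k` is independent over `L` in `F'`. -/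
theorem linearIndependent_map {ι : Type*} {g : ι → F} (hg : LinearIndependent k g) :
    LinearIndependent L fun i => algebraMap F F' (g i) := by
  rw [linearIndependent_iff_finset_linearIndependent]
  intro s
  have h := IsConstExt.linearIndependent (L := L) (F' := F') (g ∘ Subtype.val ∘ s.equivFin.symm)
    (hg.comp _ (Subtype.val_injective.comp s.equivFin.symm.injective))
  have h' := h.comp s.equivFin s.equivFin.injective
  have he : (fun i => algebraMap F F' (g i)) ∘ (Subtype.val : s → ι)
      = (fun i => algebraMap F F' ((g ∘ Subtype.val ∘ s.equivFin.symm) i)) ∘ s.equivFin := by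
    funext i
    simp
  rw [he]
  exact h'

omit [Algebra k L] [Algebra k F'] [IsScalarTower k L F'] [IsScalarTower k F F'] in
/-- An element transcendental over `k` stays transcendental over `L`. -/
theorem transcendental_map {x : F} (hx : Transcendental k x) :
    Transcendental L (algebraMap F F' x) := by
  have h := linearIndependent_map (k := k) (L := L) (F' := F')
    (Fermat.Agent.FunctionField.linearIndependent_pow hx)
  rw [transcendental_iff]
  intro p hp
  rw [Polynomial.aeval_eq_sum_range] at hp
  have hp' : ∑ i ∈ Finset.range (p.natDegree + 1), p.coeff i • algebraMap F F' (x ^ i) = 0 := by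
    simpa only [map_pow] using hp
  have := linearIndependent_iff'.mp h _ _ hp'
  ext i
  by_cases hi : i < p.natDegree + 1
  · exact this i (Finset.mem_range.mpr hi)
  · exact Polynomial.coeff_eq_zero_of_natDegree_lt (by omega)

variable (L F') in
omit [IsConstExt k F L F'] in
theorem algebraMap_mem_adjoin {x : F} (c : k⟮x⟯) :
    algebraMap F F' c ∈ L⟮algebraMap F F' x⟯ := by
  have hle : k⟮x⟯ ≤ (L⟮algebraMap F F' x⟯.restrictScalars k).comap
      (IsScalarTower.toAlgHom k F F') := by
    rw [adjoin_simple_le_iff]
    exact mem_adjoin_simple_self L (algebraMap F F' x)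
  exact hle c.2

variable (L F') in
/-- `k(x) → L(x)`. -/
def adjoinHom (x : F) : k⟮x⟯ →+* L⟮algebraMap F F' x⟯ :=
  ((algebraMap F F').comp (algebraMap k⟮x⟯ F)).codRestrict _
    fun c => algebraMap_mem_adjoin L F' c

omit [IsConstExt k F L F'] in
@[simp]
theorem coe_adjoinHom {x : F} (c : k⟮x⟯) :
    (adjoinHom L F' x c : F') = algebraMap F F' c := rfl

omit [IsConstExt k F L F'] in
/-- Scalars from `k(x)` act on the image of `F` through `adjoinHom`. -/
theorem adjoinHom_smul {x : F} (c : k⟮x⟯) (f : F) :
    adjoinHom L F' x c • algebraMap F F' f = algebraMap F F' (c • f) := by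
  rw [IntermediateField.smul_def, IntermediateField.smul_def, smul_eq_mul, smul_eq_mul, map_mul]
  rfl

omit [Algebra k L] [Algebra k F'] [IsScalarTower k L F'] [IsScalarTower k F F'] in
theorem linearIndependent_map_adjoin {x : F} (hx : Transcendental k x) {ι : Type*} [Fintype ι]
    (b : Module.Basis ι k⟮x⟯ F) :
    LinearIndependent L⟮algebraMap F F' x⟯ fun i => algebraMap F F' (b i) := by
  classical
  refine linearIndependent_of_polynomial _ fun p hp => ?_
  let N := Finset.univ.sup (fun i => (p i).natDegree) + 1
  let gen : k⟮x⟯ := ⟨x, mem_adjoin_simple_self k x⟩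
  have hgen : LinearIndependent k fun j : Fin N => gen ^ (j : ℕ) := by
    refine LinearIndependent.of_comp k⟮x⟯.val.toLinearMap ?_
    exact (Fermat.Agent.FunctionField.linearIndependent_pow hx).comp _ Fin.val_injective
  have hli := linearIndependent_map (k := k) (L := L) (F' := F')
    (linearIndependent_smul hgen b.linearIndependent)
  have hdeg : ∀ i, (p i).natDegree < N := fun i =>
    Nat.lt_succ_of_le (Finset.le_sup (f := fun i => (p i).natDegree) (Finset.mem_univ i))
  have hsum : ∑ q : Fin N × ι, (p q.2).coeff q.1 • algebraMap F F' (gen ^ (q.1 : ℕ) • b q.2)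
      = 0 := by
    rw [← hp, Fintype.sum_prod_type, Finset.sum_comm]
    refine Finset.sum_congr rfl fun i _ => ?_
    rw [Polynomial.aeval_eq_sum_range' (hdeg i), Finset.sum_mul,
      ← Fin.sum_univ_eq_sum_range (fun j => (p i).coeff j • algebraMap F F' x ^ j * algebraMap F F' (b i))]
    refine Finset.sum_congr rfl fun j _ => ?_
    rw [IntermediateField.smul_def, smul_eq_mul, map_mul, smul_mul_assoc]
    simp [gen, map_pow]
  intro i
  ext j
  by_cases hj : j < N
  · exact Fintype.linearIndependent_iff.mp hli _ hsum (⟨j, hj⟩, i)
  · rw [Polynomial.coeff_zero]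
    exact Polynomial.coeff_eq_zero_of_natDegree_lt (lt_of_lt_of_le (hdeg i) (not_lt.mp hj))

theorem span_map_adjoin {x : F} {ι : Type*} [Fintype ι] (b : Module.Basis ι k⟮x⟯ F) :
    Submodule.span L⟮algebraMap F F' x⟯ (Set.range fun i => algebraMap F F' (b i)) = ⊤ := by
  classical
  set E := L⟮algebraMap F F' x⟯
  set S := Submodule.span E (Set.range fun i => algebraMap F F' (b i))
  have hle : Subalgebra.toSubmodule (Algebra.adjoin E (Set.range (algebraMap F F'))) ≤ S := by
    rw [Algebra.adjoin_eq_span, Submodule.span_le]
    intro z hz
    obtain ⟨f, rfl⟩ : z ∈ (MonoidHom.mrange (algebraMap F F' : F →* F')) :=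
      Submonoid.closure_le.mpr (fun w hw => hw) hz
    show algebraMap F F' f ∈ S
    rw [← b.sum_repr f, map_sum]
    refine S.sum_mem fun i _ => ?_
    rw [← adjoinHom_smul (L := L)]
    exact S.smul_mem _ (Submodule.subset_span ⟨i, rfl⟩)
  have hfin : Module.Finite E S := Module.Finite.span_of_finite E (Set.finite_range _)
  have hfinA : Module.Finite E (Algebra.adjoin E (Set.range (algebraMap F F'))) := by
    have : Module.Finite E (Subalgebra.toSubmodule (Algebra.adjoin E (Set.range (algebraMap F F')))) :=
      Module.Finite.of_injective (Submodule.inclusion hle) (Submodule.inclusion_injective hle)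
    exact this
  let A := Algebra.adjoin E (Set.range (algebraMap F F'))
  let M : IntermediateField L F' :=
    { A.restrictScalars L with
      inv_mem' := fun z hz => Algebra.IsIntegral.inv_mem (A := A) hz }
  have htop : M = ⊤ := by
    rw [eq_top_iff, ← IsConstExt.adjoin_eq_top (k := k) (F := F) (L := L) (F' := F'),
      adjoin_le_iff]
    exact Algebra.subset_adjoin
  rw [eq_top_iff]
  intro z _
  exact hle (show z ∈ M from htop ▸ IntermediateField.mem_top)

variable (L F') in
/-- A `k(x)`-basis of `F` is an `L(x)`-basis of `F'`. -/
def mapBasis {x : F} (hx : Transcendental k x) {ι : Type*} [Fintype ι]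
    (b : Module.Basis ι k⟮x⟯ F) : Module.Basis ι L⟮algebraMap F F' x⟯ F' :=
  Module.Basis.mk (linearIndependent_map_adjoin hx b) (span_map_adjoin b).ge

/-- The vectors of `mapBasis` are the images of those of the original basis. -/
theorem mapBasis_apply {x : F} (hx : Transcendental k x) {ι : Type*} [Fintype ι]
    (b : Module.Basis ι k⟮x⟯ F) (i : ι) : mapBasis L F' hx b i = algebraMap F F' (b i) :=
  Module.Basis.mk_apply _ _ i

/-- Coordinates in `mapBasis` are the images of the original coordinates. -/
theorem mapBasis_repr {x : F} (hx : Transcendental k x) {ι : Type*} [Fintype ι]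
    (b : Module.Basis ι k⟮x⟯ F) (f : F) (i : ι) :
    (mapBasis L F' hx b).repr (algebraMap F F' f) i = adjoinHom L F' x (b.repr f i) := by
  classical
  have h : algebraMap F F' f = ∑ j, adjoinHom L F' x (b.repr f j) • mapBasis L F' hx b j := by
    conv_lhs => rw [← b.sum_repr f]
    rw [map_sum]
    exact Finset.sum_congr rfl fun j _ => by rw [mapBasis_apply, adjoinHom_smul]
  rw [h, (mapBasis L F' hx b).repr_sum_self]

variable [IsFunctionField k F]

/-- `F'` is finite over `L(x)` for `x` in `F` transcendental over `k`. -/
theorem finiteDimensional_adjoin_map {x : F} (hx : Transcendental k x) :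
    FiniteDimensional L⟮algebraMap F F' x⟯ F' :=
  haveI := IsFunctionField.finiteDimensional_adjoin x hx
  (mapBasis L F' hx (Module.finBasis k⟮x⟯ F)).finiteDimensional_of_finite

/-- The degree of a function is unchanged by constant field extension. -/
theorem degFun_map {x : F} (hx : Transcendental k x) :
    degFun L (algebraMap F F' x) = degFun k x := by
  have := IsFunctionField.finiteDimensional_adjoin x hx
  rw [degFun, degFun, Module.finrank_eq_card_basis (Module.finBasis k⟮x⟯ F),
    Module.finrank_eq_card_basis (mapBasis L F' hx (Module.finBasis k⟮x⟯ F))]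

variable (k F L F') in
include k F in
/-- A constant field extension of a function field is a function field. -/
theorem isFunctionField : IsFunctionField L F' := by
  obtain ⟨x, hx⟩ := IsFunctionField.exists_transcendental (K := k) (F := F)
  have := finiteDimensional_adjoin_map (L := L) (F' := F') hx
  exact isFunctionField_of_finiteDimensional (transcendental_map (L := L) hx)

end Fermat.Agent.CurveBaseChange
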