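import Fermat.Agent.CurveBaseChange.Basic
import Fermat.Agent.FFPlaces.Basic

/-!
# Places under constant field extension

Every place of `F` has exactly one extension to `F'`, which is unramified; the other places of
`F'` are trivial on `F`.
-/

set_option autoImplicit false

noncomputable section

open AlgebraicCurve IntermediateField
open Fermat.Agent.FunctionField

namespace Fermat.Agent.CurveBaseChange

section General

variable {K F : Type*} [Field K] [Field F] [Algebra K F] [IsAlgClosed K]

/-- Over algebraically closed constants, a nonconstant function is transcendental. -/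
theorem transcendental_of_notMem_range {x : F} (hx : x ∉ Set.range (algebraMap K F)) :
    Transcendental K x := fun h =>
  hx (minpoly.mem_range_of_degree_eq_one K x
    (IsAlgClosed.degree_eq_one_of_irreducible K (minpoly.irreducible h.isIntegral)))

variable [IsFunctionField K F]

/-- Every place is the only pole of some nonconstant function. -/
theorem exists_function_pole (p : Place K F) :
    ∃ x : F, Transcendental K x ∧ p.ord x < 0 ∧ ∀ q : Place K F, q ≠ p → 0 ≤ q.ord x := by
  classical
  set D : Divisor K F := Finsupp.single p ((genusFF K F : ℤ) + 1) with hD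
  have h2 : 2 ≤ ell D := by
    have h := riemann_roch D
    have hd : Divisor.degree D = (genusFF K F : ℤ) + 1 := by
      rw [hD, Divisor.degree_single, deg_eq_one p, Nat.cast_one, mul_one]
    rw [hd] at h
    omega
  obtain ⟨x, hxD, hxc⟩ : ∃ x ∈ riemannRochSpace D, x ∉ Set.range (algebraMap K F) := by
    by_contra! hc
    have hle : riemannRochSpace D ≤ Submodule.span K {(1 : F)} := fun f hf => by
      obtain ⟨c, rfl⟩ := hc f hf
      exact Submodule.mem_span_singleton.mpr ⟨c, by rw [Algebra.smul_def, mul_one]⟩
    have h1 := Submodule.finrank_mono hle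
    rw [finrank_span_singleton one_ne_zero] at h1
    change ell D ≤ 1 at h1
    omega
  have hx := transcendental_of_notMem_range hxc
  have hq : ∀ q : Place K F, q ≠ p → 0 ≤ q.ord x := fun q hne => by
    have := ((mem_riemannRochSpace_iff.mp hxD) q).resolve_left (transcendental_ne_zero hx)
    rwa [hD, Finsupp.single_eq_of_ne hne, neg_zero] at this
  obtain ⟨q, hq'⟩ := exists_place_ord_pos (transcendental_inv hx)
  rw [q.ord_inv] at hq'
  obtain rfl : q = p := by
    by_contra hne
    have := hq q hne
    omega
  exact ⟨x, hx, by omega, hq⟩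

theorem degFun_eq_of_pole {p : Place K F} {x : F} (hx : Transcendental K x) (hp : p.ord x < 0)
    (hq : ∀ q : Place K F, q ≠ p → 0 ≤ q.ord x) : (degFun K x : ℤ) = -p.ord x := by
  classical
  have h : poleDiv K x = Finsupp.single p (-p.ord x) := by
    ext q
    rcases eq_or_ne q p with rfl | hne
    · rw [Finsupp.single_eq_same]
      simp [poleDiv, Finsupp.sup_apply]
      omega
    · rw [Finsupp.single_eq_of_ne hne]
      have := hq q hne
      simp [poleDiv, Finsupp.sup_apply]
      omega
  rw [← degree_poleDiv hx, h, Divisor.degree_single, deg_eq_one, Nat.cast_one, mul_one]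

/-- Every function regular at a place has a value there. -/
theorem exists_value (v : Place K F) {h : F} (hh : h ∈ v.toValuationSubring) :
    ∃ c : K, v.adicValuation (h - algebraMap K F c) < 1 := by
  have : Algebra.IsIntegral K v.ResidueField := Algebra.IsIntegral.of_finite K v.ResidueField
  obtain ⟨c, hc⟩ := (IsAlgClosed.algebraMap_bijective_of_isIntegral (k := K)
    (K := v.ResidueField)).2 (IsLocalRing.residue _ (⟨h, hh⟩ : v.toValuationSubring))
  refine ⟨c, ?_⟩
  have hmem : (⟨h, hh⟩ : v.toValuationSubring) - algebraMap K v.toValuationSubring c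
      ∈ IsLocalRing.maximalIdeal v.toValuationSubring := by
    rw [← IsLocalRing.residue_eq_zero_iff, map_sub, sub_eq_zero, ← hc]
    rfl
  refine lt_of_le_of_ne
    (v.adicValuation_le_one_of_mem (sub_mem hh (v.algebraMap_mem' c))) fun h1 => ?_
  rw [IsLocalRing.mem_maximalIdeal, mem_nonunits_iff, ← v.adicValuation_coe_eq_one_iff] at hmem
  exact hmem h1

omit [IsAlgClosed K] [IsFunctionField K F] in
/-- The value of a function at a place is unique. -/
theorem value_unique (v : Place K F) {h : F} {c c' : K}
    (hc : v.adicValuation (h - algebraMap K F c) < 1)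
    (hc' : v.adicValuation (h - algebraMap K F c') < 1) : c = c' := by
  by_contra hne
  have h1 : v.adicValuation (algebraMap K F (c' - c)) = 1 :=
    adicValuation_algebraMap v (sub_ne_zero.mpr (Ne.symm hne))
  have h2 := Valuation.map_sub v.adicValuation (h - algebraMap K F c) (h - algebraMap K F c')
  rw [sub_sub_sub_cancel_left, ← map_sub, h1] at h2
  exact absurd h2 (not_le.mpr (max_lt hc hc'))

end General

variable {k F L F' : Type*} [Field k] [Field F] [Field L] [Field F'] [Algebra k F] [Algebra k L]
  [Algebra L F'] [Algebra F F'] [Algebra k F'] [IsScalarTower k L F'] [IsScalarTower k F F']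
  [IsConstExt k F L F'] [IsFunctionField k F] [IsFunctionField L F'] [IsAlgClosed k]
  [IsAlgClosed L]

variable (k F) in
/-- A place of `F'` which is not trivial on `F`. -/
def IsRat (P : Place L F') : Prop := ∃ f : F, P.ord (algebraMap F F' f) ≠ 0

omit [IsFunctionField L F'] [IsAlgClosed L] in
theorem comap_ne_top {P : Place L F'} (h : IsRat F P) :
    P.toValuationSubring.comap (algebraMap F F') ≠ ⊤ := by
  intro htop
  obtain ⟨f, hf⟩ := h
  have hall : ∀ g : F, 0 ≤ P.ord (algebraMap F F' g) := fun g =>
    (FFPlaces.mem_iff P).mp
      (show g ∈ P.toValuationSubring.comap (algebraMap F F') from htop ▸ ValuationSubring.mem_top g)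
  have h1 := hall f
  have h2 := hall f⁻¹
  rw [map_inv₀, P.ord_inv] at h2
  omega

variable (k) in
/-- The restriction of a place of `F'` to `F`. -/
def restrictPlace (P : Place L F') (h : IsRat F P) : Place k F :=
  placeOfValuationSubring (P.toValuationSubring.comap (algebraMap F F'))
    (fun a => by
      rw [ValuationSubring.mem_comap, ← IsScalarTower.algebraMap_apply,
        IsScalarTower.algebraMap_apply k L F']
      exact P.algebraMap_mem' _)
    (comap_ne_top h)

omit [IsFunctionField L F'] [IsAlgClosed L] in
omit [IsConstExt k F L F'] [IsAlgClosed k] in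
theorem restrictPlace_nonneg_iff (P : Place L F') (h : IsRat F P) (f : F) :
    0 ≤ (restrictPlace k P h).ord f ↔ 0 ≤ P.ord (algebraMap F F' f) := by
  rw [← FFPlaces.mem_iff, ← FFPlaces.mem_iff]
  rfl

omit [IsFunctionField L F'] [IsAlgClosed L] in
omit [IsConstExt k F L F'] [IsAlgClosed k] in
theorem exists_ord_restrictPlace (P : Place L F') (h : IsRat F P) :
    ∃ e : ℤ, 0 < e ∧ ∀ f : F, P.ord (algebraMap F F' f) = e * (restrictPlace k P h).ord f := by
  set p := restrictPlace k P h
  obtain ⟨π, hπ0, hπ⟩ := FFPlaces.exists_uniformizer p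
  have hunit : ∀ f : F, f ≠ 0 → p.ord f = 0 → P.ord (algebraMap F F' f) = 0 := by
    intro f _ hf
    have h1 := (restrictPlace_nonneg_iff (k := k) P h f).mp hf.ge
    have h2 := (restrictPlace_nonneg_iff (k := k) P h f⁻¹).mp (by rw [p.ord_inv, hf, neg_zero])
    rw [map_inv₀, P.ord_inv] at h2
    omega
  refine ⟨P.ord (algebraMap F F' π), ?_, fun f => ?_⟩
  · have h1 := (restrictPlace_nonneg_iff (k := k) P h π).mp (hπ ▸ zero_le_one)
    refine lt_of_le_of_ne h1 fun h0 => ?_
    have h2 := (restrictPlace_nonneg_iff (k := k) P h π⁻¹).mpr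
      (by rw [map_inv₀, P.ord_inv, ← h0, neg_zero])
    rw [p.ord_inv, hπ] at h2
    omega
  · rcases eq_or_ne f 0 with rfl | hf
    · simp
    rw [mul_comm]
    exact FFPlaces.eq_ord_mul p (fun g => P.ord (algebraMap F F' g))
      (fun a b ha hb => by
        rw [map_mul, P.ord_mul (by simpa using ha) (by simpa using hb)]) hunit hπ0 hπ hf

theorem existsUnique_lift (p : Place k F) :
    ∃ P : Place L F', (∀ f : F, P.ord (algebraMap F F' f) = p.ord f) ∧
      ∀ Q : Place L F', ∀ h : IsRat F Q, restrictPlace k Q h = p → Q = P := by
  classical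
  obtain ⟨x, hx, hp, hq⟩ := exists_function_pole p
  have hn := degFun_eq_of_pole hx hp hq
  set x' := algebraMap F F' x with hx'def
  have hx' : Transcendental L x' := transcendental_map (k := k) hx
  have hdeg := degree_poleDiv hx'
  rw [degFun_map (k := k) hx, hn] at hdeg
  have hpole : ∀ Q : Place L F', Q.ord x' < 0 →
      ∃ e : ℤ, 0 < e ∧ (∀ f : F, Q.ord (algebraMap F F' f) = e * p.ord f) := by
    intro Q hQ
    have hrat : IsRat F Q := ⟨x, by rw [← hx'def]; omega⟩
    obtain ⟨e, he, heq⟩ := exists_ord_restrictPlace (k := k) Q hrat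
    refine ⟨e, he, ?_⟩
    have : restrictPlace k Q hrat = p := by
      by_contra hne
      have h1 := mul_nonneg he.le (hq _ hne)
      rw [← heq] at h1
      exact absurd h1 (not_le.mpr hQ)
    rwa [this] at heq
  obtain ⟨P, hP⟩ := exists_place_ord_pos (transcendental_inv hx')
  rw [P.ord_inv] at hP
  have hP' : P.ord x' < 0 := by omega
  have hle : ∀ Q : Place L F', Q.ord x' < 0 → -p.ord x ≤ poleDiv L x' Q := by
    intro Q hQ
    obtain ⟨e, he, heq⟩ := hpole Q hQ
    refine le_trans ?_ (neg_ord_le_poleDiv x' Q)
    rw [hx'def, heq, neg_le_neg_iff]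
    exact le_trans (mul_le_mul_of_nonpos_right (Int.add_one_le_iff.mpr he) hp.le)
      (by simp)
  have huniq : ∀ Q : Place L F', Q.ord x' < 0 → Q = P := by
    intro Q hQ
    by_contra hne
    have h : (Finsupp.single P (-p.ord x) + Finsupp.single Q (-p.ord x) : Divisor L F')
        ≤ poleDiv L x' := by
      refine Finsupp.le_def.mpr fun R => ?_
      have h0 := Finsupp.le_def.mp (poleDiv_nonneg (K := L) x') R
      rw [Finsupp.add_apply]
      rcases eq_or_ne R P with rfl | hRP
      · rw [Finsupp.single_eq_same, Finsupp.single_eq_of_ne (Ne.symm hne), add_zero]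
        exact hle R hP'
      · rw [Finsupp.single_eq_of_ne hRP, zero_add]
        rcases eq_or_ne R Q with rfl | hRQ
        · rw [Finsupp.single_eq_same]
          exact hle R hQ
        · rwa [Finsupp.single_eq_of_ne hRQ]
    have := degree_mono h
    rw [map_add, Divisor.degree_single, Divisor.degree_single, deg_eq_one, deg_eq_one, hdeg] at this
    simp only [Nat.cast_one, mul_one] at this
    omega
  refine ⟨P, ?_, fun Q hrat hQp => huniq Q ?_⟩
  · obtain ⟨e, he, heq⟩ := hpole P hP'
    suffices e = 1 by simpa [this] using heq
    have h : (Finsupp.single P (-P.ord x') : Divisor L F') ≤ poleDiv L x' := by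
      refine Finsupp.le_def.mpr fun R => ?_
      rcases eq_or_ne R P with rfl | hRP
      · rw [Finsupp.single_eq_same]
        exact neg_ord_le_poleDiv x' R
      · rw [Finsupp.single_eq_of_ne hRP]
        exact Finsupp.le_def.mp (poleDiv_nonneg (K := L) x') R
    have h1 := degree_mono h
    rw [Divisor.degree_single, deg_eq_one, hdeg, Nat.cast_one, mul_one, hx'def, heq] at h1
    by_contra hne
    have h2 : e * p.ord x ≤ 2 * p.ord x := mul_le_mul_of_nonpos_right (by omega) hp.le
    omega
  · obtain ⟨e, he, heq⟩ := exists_ord_restrictPlace (k := k) Q hrat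
    rw [hx'def, heq, hQp]
    exact mul_neg_of_pos_of_neg he hp

variable (L F') in
/-- The extension of a place of `F` to `F'`. -/
def liftPlace (p : Place k F) : Place L F' := (existsUnique_lift p).choose

/-- The extended place is unramified. -/
@[simp]
theorem ord_liftPlace (p : Place k F) (f : F) :
    (liftPlace L F' p).ord (algebraMap F F' f) = p.ord f :=
  (existsUnique_lift p).choose_spec.1 f

theorem liftPlace_restrictPlace (P : Place L F') (h : IsRat F P) :
    liftPlace L F' (restrictPlace k P h) = P :=
  ((existsUnique_lift (restrictPlace k P h)).choose_spec.2 P h rfl).symm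

variable (k) in
/-- A place of `F'` at which some function of `F` has nonzero order is an extended place. -/
theorem exists_eq_liftPlace {P : Place L F'} {f : F} (h : P.ord (algebraMap F F' f) ≠ 0) :
    ∃ p : Place k F, P = liftPlace L F' p :=
  ⟨restrictPlace k P ⟨f, h⟩, (liftPlace_restrictPlace P ⟨f, h⟩).symm⟩

/-- Distinct places of `F` have distinct extensions. -/
theorem liftPlace_injective : Function.Injective (liftPlace L F' : Place k F → Place L F') :=
  fun p q h => FFPlaces.ord_eq_of_le fun f hf => by
    rwa [← ord_liftPlace (L := L) (F' := F') q, ← h, ord_liftPlace]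

/-- Places of `F'` lying over a place of `F` are determined by their orders on `F`. -/
theorem eq_liftPlace_of_ord {p : Place k F} {P : Place L F'}
    (h : ∀ f : F, P.ord (algebraMap F F' f) = p.ord f) : P = liftPlace L F' p := by
  obtain ⟨π, hπ0, hπ⟩ := FFPlaces.exists_uniformizer p
  obtain ⟨q, rfl⟩ := exists_eq_liftPlace k (P := P) (f := π) (by rw [h, hπ]; omega)
  congr 1
  exact FFPlaces.ord_eq_of_le fun f hf => by
    rwa [← h f, ord_liftPlace]

variable (L F') in
/-- The extension of divisors to `F'`. -/
def liftDiv : Divisor k F →+ Divisor L F' :=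
  Finsupp.mapDomain.addMonoidHom (liftPlace L F')

/-- Extension of a divisor supported at one place. -/
@[simp]
theorem liftDiv_single (p : Place k F) (n : ℤ) :
    liftDiv L F' (Finsupp.single p n) = Finsupp.single (liftPlace L F' p) n :=
  Finsupp.mapDomain_single

/-- An extended divisor has the original coefficient at an extended place. -/
@[simp]
theorem liftDiv_apply (D : Divisor k F) (p : Place k F) :
    liftDiv L F' D (liftPlace L F' p) = D p :=
  Finsupp.mapDomain_apply liftPlace_injective D p

/-- An extended divisor vanishes off the extended places. -/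
theorem liftDiv_apply_of_notRat (D : Divisor k F) {P : Place L F'}
    (h : ∀ p : Place k F, P ≠ liftPlace L F' p) : liftDiv L F' D P = 0 :=
  Finsupp.mapDomain_of_notMem_range _ _ fun ⟨p, hp⟩ => h p hp.symm

/-- Extension of divisors preserves the degree. -/
theorem degree_liftDiv (D : Divisor k F) :
    Divisor.degree (liftDiv L F' D) = Divisor.degree D := by
  induction D using Finsupp.induction with
  | zero => simp
  | single_add p n D _ _ ih =>
    rw [map_add, map_add, map_add, ih, liftDiv_single, Divisor.degree_single,
      Divisor.degree_single, deg_eq_one p, deg_eq_one (liftPlace L F' p)]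

/-- Extension of divisors commutes with taking the divisor of a function. -/
theorem liftDiv_divFun (f : F) :
    liftDiv L F' (divFun k f) = divFun L (algebraMap F F' f) := by
  ext P
  by_cases hP : ∃ p : Place k F, P = liftPlace L F' p
  · obtain ⟨p, rfl⟩ := hP
    simp
  · push Not at hP
    rw [liftDiv_apply_of_notRat _ hP, divFun_apply]
    by_contra hne
    obtain ⟨p, hp⟩ := exists_eq_liftPlace k (Ne.symm hne)
    exact hP p hp

end Fermat.Agent.CurveBaseChange
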