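import Fermat.Agent.CurveBaseChange.Span
import Fermat.Agent.FFPlaces.Global
import Mathlib.RingTheory.Trace.Basic
import Mathlib.RingTheory.Discriminant
import Mathlib.RingTheory.Valuation.LocalSubring
import Mathlib.RingTheory.IntegralClosure.IntegrallyClosed

/-!
# Riemann–Roch spaces under constant field extension

Riemann–Roch spaces and the genus are invariant under constant field extension.
-/

set_option autoImplicit false

noncomputable section

open AlgebraicCurve IntermediateField WithZero
open Fermat.Agent.FunctionField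

namespace Fermat.Agent.CurveBaseChange

section Integral

variable {K F : Type*} [Field K] [Field F] [Algebra K F] [IsFunctionField K F]

/-- A function regular wherever `t` is regular is integral over `K[t]`. -/
theorem isIntegral_of_regular {t : F} {f : F}
    (h : ∀ P : Place K F, 0 ≤ P.ord t → 0 ≤ P.ord f) :
    letI := FFPlaces.genAlgebra (K := K) t
    IsIntegral (Polynomial K) f := by
  let := FFPlaces.genAlgebra (K := K) t
  set s : Set F := Set.range (algebraMap (Polynomial K) F)
  have hmem : f ∈ (⨅ V : {V : ValuationSubring F // s ⊆ V.toSubring}, V.1.toSubring) := by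
    rw [Subring.mem_iInf]
    rintro ⟨V, hV⟩
    rcases eq_or_ne V ⊤ with rfl | htop
    · exact ValuationSubring.mem_top f
    have hK : ∀ a : K, algebraMap K F a ∈ V := fun a =>
      hV ⟨Polynomial.C a, Polynomial.aeval_C t a⟩
    let P := placeOfValuationSubring V hK htop
    have ht : 0 ≤ P.ord t :=
      (FFPlaces.mem_iff P).mp (hV ⟨Polynomial.X, Polynomial.aeval_X t⟩)
    exact (FFPlaces.mem_iff P).mpr (h P ht)
  rw [iInf_valuationSubring_superset] at hmem
  obtain ⟨p, hp, hpf⟩ := (hmem : IsIntegral (Subring.closure s) f)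
  have hclosure : Subring.closure s = (algebraMap (Polynomial K) F).range := by
    rw [show s = ((algebraMap (Polynomial K) F).range : Set F) from rfl, Subring.closure_eq]
  have hlift : p.map (algebraMap (Subring.closure s) F) ∈
      Polynomial.lifts (algebraMap (Polynomial K) F) := by
    rw [Polynomial.lifts_iff_coeff_lifts]
    intro n
    rw [Polynomial.coeff_map]
    exact RingHom.mem_range.mp ((SetLike.ext_iff.mp hclosure _).mp (p.coeff n).2)
  obtain ⟨q, hq, -, hqm⟩ := Polynomial.lifts_and_natDegree_eq_and_monic hlift (hp.map _)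
  refine ⟨q, hqm, ?_⟩
  rw [← Polynomial.eval_map, hq, Polynomial.eval_map]
  exact hpf

end Integral

variable {k F L F' : Type*} [Field k] [Field F] [Field L] [Field F'] [Algebra k F] [Algebra k L]
  [Algebra L F'] [Algebra F F'] [Algebra k F'] [IsScalarTower k L F'] [IsScalarTower k F F']
  [IsConstExt k F L F'] [IsFunctionField k F] [IsFunctionField L F'] [IsAlgClosed k]
  [IsAlgClosed L] [CharZero k]

omit [IsFunctionField L F'] [IsAlgClosed k] [IsAlgClosed L] in
theorem trace_map {x : F} (hx : Transcendental k x) (f : F) :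
    Algebra.trace L⟮algebraMap F F' x⟯ F' (algebraMap F F' f)
      = adjoinHom L F' x (Algebra.trace k⟮x⟯ F f) := by
  classical
  have := IsFunctionField.finiteDimensional_adjoin x hx
  let b := Module.finBasis k⟮x⟯ F
  rw [Algebra.trace_eq_matrix_trace b, Algebra.trace_eq_matrix_trace (mapBasis L F' hx b),
    Matrix.trace, Matrix.trace, map_sum]
  refine Finset.sum_congr rfl fun i _ => ?_
  rw [Matrix.diag, Matrix.diag, Algebra.leftMulMatrix_eq_repr_mul,
    Algebra.leftMulMatrix_eq_repr_mul, mapBasis_apply, ← map_mul, mapBasis_repr]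

/-- Functions regular away from an extended place lie in the span of `F`. -/
theorem mem_baseSpan_of_regular (p : Place k F) {z : F'}
    (hz : ∀ P : Place L F', P ≠ liftPlace L F' p → 0 ≤ P.ord z) : z ∈ baseSpan F L F' := by
  classical
  obtain ⟨x, hx, hp, hq⟩ := exists_function_pole p
  set x' := algebraMap F F' x
  have hx' : Transcendental L x' := transcendental_map (k := k) hx
  have := IsFunctionField.finiteDimensional_adjoin x hx
  have := finiteDimensional_adjoin_map (L := L) (F' := F') hx
  have : CharZero k⟮x⟯ := charZero_of_injective_algebraMap (algebraMap k k⟮x⟯).injective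
  let b₀ := Module.finBasis k⟮x⟯ F
  set n := Module.finrank k⟮x⟯ F
  set E : Divisor k F := ∑ i, poleDiv k (b₀ i) with hE
  obtain ⟨u, hu, hu0⟩ : ∃ u ∈
      riemannRochSpace (Finsupp.single p (Divisor.degree E + genusFF k F) - E), u ≠ 0 := by
    refine exists_ne_zero_mem_of_ell_pos ?_
    have h := riemann_roch (Finsupp.single p (Divisor.degree E + genusFF k F) - E)
    rw [map_sub, Divisor.degree_single, deg_eq_one p, Nat.cast_one, mul_one,
      add_sub_cancel_left] at h
    omega
  let e : F ≃ₗ[k⟮x⟯] F := LinearEquiv.ofBijective (LinearMap.mulLeft k⟮x⟯ u)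
    ⟨fun a c h => mul_left_cancel₀ hu0 h, fun a => ⟨u⁻¹ * a, mul_inv_cancel_left₀ hu0 a⟩⟩
  let b := b₀.map e
  have hb : ∀ i, ∀ q : Place k F, q ≠ p → 0 ≤ q.ord (b i) := by
    intro i q hne
    show 0 ≤ q.ord (u * b₀ i)
    have h1 := ((mem_riemannRochSpace_iff.mp hu) q).resolve_left hu0
    rw [Finsupp.sub_apply, Finsupp.single_eq_of_ne hne] at h1
    have h2 : poleDiv k (b₀ i) ≤ E :=
      Finset.single_le_sum (f := fun i => poleDiv k (b₀ i)) (fun i _ => poleDiv_nonneg _)
        (Finset.mem_univ i)
    have h3 := Finsupp.le_def.mp h2 q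
    have h4 := neg_ord_le_poleDiv (K := k) (b₀ i) q
    rw [q.ord_mul hu0 (b₀.ne_zero i)]
    omega
  set B := mapBasis L F' hx b
  have hreg : ∀ j, ∀ P : Place L F', 0 ≤ P.ord x' → 0 ≤ P.ord (z * B j) := by
    intro j P hP
    have hne : P ≠ liftPlace L F' p := fun h => by
      rw [h, ord_liftPlace] at hP
      omega
    rcases eq_or_ne z 0 with rfl | hz0
    · simp
    rw [P.ord_mul hz0 (B.ne_zero j)]
    refine add_nonneg (hz P hne) ?_
    rw [mapBasis_apply]
    by_contra hneg
    obtain ⟨q, rfl⟩ := exists_eq_liftPlace k (P := P) (f := b j) (by omega)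
    rw [ord_liftPlace] at hneg
    exact hneg (hb j q fun h => hne (h ▸ rfl))
  let := FFPlaces.genAlgebra (K := L) x'
  let := FFPlaces.genAlgebraField (K := L) x'
  have := FFPlaces.genAlgebra_tower (K := L) x'
  have := FFPlaces.genAlgebra_isFractionRing hx'
  set t : Fin n → L⟮x'⟯ := fun j => Algebra.trace L⟮x'⟯ F' (z * B j) with ht
  have htr : ∀ j, ∃ r : Polynomial L, (t j : F') = Polynomial.aeval x' r := by
    intro j
    have hint : IsIntegral (Polynomial L) (t j) :=
      Algebra.isIntegral_trace (isIntegral_of_regular (hreg j))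
    obtain ⟨r, hr⟩ := IsIntegrallyClosed.isIntegral_iff.mp hint
    refine ⟨r, ?_⟩
    rw [← hr]
    exact (IsScalarTower.algebraMap_apply (Polynomial L) L⟮x'⟯ F' r).symm
  set φ := adjoinHom (k := k) L F' x
  set T₀ := Algebra.traceMatrix k⟮x⟯ b
  have hT : Algebra.traceMatrix L⟮x'⟯ B = φ.mapMatrix T₀ := by
    ext i j
    simp only [Algebra.traceMatrix_apply, Algebra.traceForm_apply, RingHom.mapMatrix_apply,
      Matrix.map_apply, T₀, B, mapBasis_apply, ← map_mul]
    exact congrArg Subtype.val (trace_map (L := L) (F' := F') hx _)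
  have hdet : IsUnit T₀.det := by
    have := Algebra.discr_isUnit_of_basis k⟮x⟯ b
    rwa [Algebra.discr_def] at this
  have hsolve : B.equivFun z = Matrix.mulVec (φ.mapMatrix T₀⁻¹) t := by
    rw [ht, ← Algebra.traceMatrix_of_basis_mulVec, Matrix.mulVec_mulVec, hT, ← map_mul,
      Matrix.nonsing_inv_mul _ hdet, map_one, Matrix.one_mulVec]
  rw [← B.sum_equivFun z]
  refine sum_mem fun i _ => ?_
  rw [hsolve, Matrix.mulVec, dotProduct, Finset.sum_smul]
  refine sum_mem fun j _ => ?_
  obtain ⟨r, hr⟩ := htr j
  rw [mul_comm, mul_smul, mapBasis_apply, RingHom.mapMatrix_apply, Matrix.map_apply,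
    adjoinHom_smul, IntermediateField.smul_def, smul_eq_mul, hr]
  exact aeval_mul_mem_baseSpan x r _

omit [CharZero k] in
theorem algebraMap_mem_riemannRochSpace {D : Divisor k F} {f : F} (hf : f ∈ riemannRochSpace D) :
    algebraMap F F' f ∈ riemannRochSpace (liftDiv L F' D) := by
  rw [mem_riemannRochSpace_iff] at hf ⊢
  intro P
  by_cases hP : ∃ q : Place k F, P = liftPlace L F' q
  · obtain ⟨q, rfl⟩ := hP
    simpa using hf q
  · push Not at hP
    rw [liftDiv_apply_of_notRat D hP]
    refine Or.inr ?_
    by_contra hne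
    obtain ⟨q, hq⟩ := exists_eq_liftPlace k (P := P) (f := f) (by omega)
    exact hP q hq

theorem mem_baseSpan_of_mem_riemannRochSpace {D : Divisor k F} {z : F'}
    (hz : z ∈ riemannRochSpace (liftDiv L F' D)) : z ∈ baseSpan F L F' := by
  classical
  rcases eq_or_ne z 0 with rfl | hz0
  · exact zero_mem _
  obtain ⟨p⟩ := nonempty_place k F
  set E : Divisor k F := Finsupp.single p (Divisor.degree D + genusFF k F) - D with hE
  obtain ⟨u, hu, hu0⟩ : ∃ u ∈ riemannRochSpace E, u ≠ 0 := by
    refine exists_ne_zero_mem_of_ell_pos ?_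
    have h := riemann_roch E
    rw [hE, map_sub, Divisor.degree_single, deg_eq_one p, Nat.cast_one, mul_one,
      add_sub_cancel_left, ← hE] at h
    omega
  have hu0' : algebraMap F F' u ≠ 0 := by simpa using hu0
  have hmem := mem_baseSpan_of_regular (L := L) (F' := F') p
    (z := z * algebraMap F F' u) fun P hne => by
      rw [P.ord_mul hz0 hu0']
      have h1 := ((mem_riemannRochSpace_iff.mp hz) P).resolve_left hz0
      have h2 := ((mem_riemannRochSpace_iff.mp
        (algebraMap_mem_riemannRochSpace (L := L) (F' := F') hu)) P).resolve_left hu0'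
      rw [hE, map_sub, liftDiv_single, Finsupp.sub_apply, Finsupp.single_eq_of_ne hne] at h2
      omega
  have := mul_mem_baseSpan hmem u⁻¹
  rwa [mul_assoc, ← map_mul, mul_inv_cancel₀ hu0, map_one, mul_one] at this

/-- The Riemann–Roch space of an extended divisor is the extension of that of the divisor. -/
theorem riemannRochSpace_liftDiv (D : Divisor k F) {ι : Type*}
    (b : Module.Basis ι k (riemannRochSpace D)) :
    riemannRochSpace (liftDiv L F' D)
      = Submodule.span L (Set.range fun i => algebraMap F F' (b i : F)) := by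
  refine le_antisymm (fun z hz => ?_) (Submodule.span_le.mpr ?_)
  · obtain ⟨n, a, g, ha, rfl⟩ :=
      exists_rep_of_mem_baseSpan (k := k) (mem_baseSpan_of_mem_riemannRochSpace hz)
    have hg : ∀ i, g i ∈ riemannRochSpace D := fun i q => by
      refine adicValuation_le_of_sum (L := L) (F' := F') ha g q ?_ i
      simpa using hz (liftPlace L F' q)
    refine sum_mem fun i _ => Submodule.smul_mem _ _ ?_
    have h := b.linearCombination_repr ⟨g i, hg i⟩
    rw [Finsupp.linearCombination_apply, Finsupp.sum] at h
    replace h := congrArg (fun w : riemannRochSpace D => algebraMap F F' (w : F)) h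
    simp only [Submodule.coe_sum, Submodule.coe_smul, map_sum] at h
    rw [← h]
    refine sum_mem fun j _ => ?_
    rw [Algebra.smul_def, map_mul, ← IsScalarTower.algebraMap_apply,
      IsScalarTower.algebraMap_apply k L F', ← Algebra.smul_def]
    exact Submodule.smul_mem _ _ (Submodule.subset_span ⟨j, rfl⟩)
  · rintro _ ⟨i, rfl⟩
    exact algebraMap_mem_riemannRochSpace (b i).2

/-- `l(D)` is invariant under constant field extension. -/
theorem ell_liftDiv (D : Divisor k F) : ell (liftDiv L F' D) = ell D := by
  let b := Module.finBasis k (riemannRochSpace D)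
  have hli : LinearIndependent L fun i => algebraMap F F' (b i : F) :=
    linearIndependent_map (k := k)
      (b.linearIndependent.map' (riemannRochSpace D).subtype (Submodule.ker_subtype _))
  rw [ell, riemannRochSpace_liftDiv D b, finrank_span_eq_card hli, Fintype.card_fin]
  rfl

variable (k F L F') in
/-- The genus is invariant under constant field extension. -/
theorem genusFF_eq : genusFF L F' = genusFF k F := by
  obtain ⟨c, hc⟩ := exists_index_eq_zero (K := k) (F := F)
  obtain ⟨c', hc'⟩ := exists_index_eq_zero (K := L) (F := F')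
  obtain ⟨p⟩ := nonempty_place k F
  set D : Divisor k F := Finsupp.single p (max c c') with hD
  have hdeg : Divisor.degree D = max c c' := by
    rw [hD, Divisor.degree_single, deg_eq_one p, Nat.cast_one, mul_one]
  have h := riemann_roch D
  have h' := riemann_roch (liftDiv L F' D)
  rw [hc D (hdeg ▸ le_max_left _ _), hdeg] at h
  rw [hc' _ (by rw [degree_liftDiv, hdeg]; exact le_max_right _ _), degree_liftDiv, hdeg,
    ell_liftDiv] at h'
  omega

end Fermat.Agent.CurveBaseChange
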