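import Fermat.Agent.CurveBaseChange.Places
import Mathlib.Algebra.BigOperators.Field

/-!
# The span of a function field in its constant field extension

The `L`-span of `F` inside `F'` and the orders of its elements at extended places.
-/

set_option autoImplicit false

noncomputable section

open AlgebraicCurve IntermediateField WithZero
open Fermat.Agent.FunctionField

namespace Fermat.Agent.CurveBaseChange

variable {k F L F' : Type*} [Field k] [Field F] [Field L] [Field F'] [Algebra k F] [Algebra k L]
  [Algebra L F'] [Algebra F F'] [Algebra k F'] [IsScalarTower k L F'] [IsScalarTower k F F']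

variable (F L F') in
/-- The `L`-span of `F` in `F'`. -/
def baseSpan : Submodule L F' := Submodule.span L (Set.range (algebraMap F F'))

theorem algebraMap_mem_baseSpan (f : F) : algebraMap F F' f ∈ baseSpan F L F' :=
  Submodule.subset_span ⟨f, rfl⟩

/-- The `L`-span of `F` is stable under multiplication by `F`. -/
theorem mul_mem_baseSpan {z : F'} (hz : z ∈ baseSpan F L F') (f : F) :
    z * algebraMap F F' f ∈ baseSpan F L F' := by
  induction hz using Submodule.span_induction with
  | mem w hw =>
    obtain ⟨g, rfl⟩ := hw
    rw [← map_mul]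
    exact algebraMap_mem_baseSpan _
  | zero => rw [zero_mul]; exact zero_mem _
  | add u v _ _ hu hv => rw [add_mul]; exact add_mem hu hv
  | smul c u _ hu => rw [smul_mul_assoc]; exact Submodule.smul_mem _ c hu

/-- Values of `L`-polynomials at `x ∈ F`, times elements of `F`, lie in the `L`-span of `F`. -/
theorem aeval_mul_mem_baseSpan (x : F) (r : Polynomial L) (f : F) :
    Polynomial.aeval (algebraMap F F' x) r * algebraMap F F' f ∈ baseSpan F L F' := by
  rw [Polynomial.aeval_eq_sum_range, Finset.sum_mul]
  refine sum_mem fun i _ => ?_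
  rw [smul_mul_assoc, ← map_pow, ← map_mul]
  exact Submodule.smul_mem _ _ (algebraMap_mem_baseSpan _)

/-- An element of the span is a combination of `F` with coefficients in `L` independent over `k`. -/
theorem exists_rep_of_mem_baseSpan {z : F'} (hz : z ∈ baseSpan F L F') :
    ∃ (n : ℕ) (a : Fin n → L) (g : Fin n → F), LinearIndependent k a ∧
      z = ∑ i, a i • algebraMap F F' (g i) := by
  classical
  obtain ⟨ι, ⟨b⟩⟩ := Module.Basis.exists_basis k L
  have key : ∀ a : L, ∃ G : ι →₀ F, a • z = G.sum fun i f => b i • algebraMap F F' f := by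
    induction hz using Submodule.span_induction with
    | mem w hw =>
      obtain ⟨f, rfl⟩ := hw
      intro a
      refine ⟨(b.repr a).mapRange (fun r => r • f) (zero_smul _ _), ?_⟩
      rw [Finsupp.sum_mapRange_index (fun i => by simp)]
      conv_lhs => rw [← b.linearCombination_repr a, Finsupp.linearCombination_apply, Finsupp.sum,
        Finset.sum_smul]
      refine Finset.sum_congr rfl fun i _ => ?_
      show _ = b i • algebraMap F F' ((b.repr a) i • f)
      rw [smul_assoc, show algebraMap F F' ((b.repr a) i • f) = (b.repr a) i • algebraMap F F' f from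
        (IsScalarTower.toAlgHom k F F').toLinearMap.map_smul _ f, smul_comm (b i)]
    | zero => exact fun a => ⟨0, by simp⟩
    | add u v _ _ hu hv =>
      intro a
      obtain ⟨G, hG⟩ := hu a
      obtain ⟨H, hH⟩ := hv a
      exact ⟨G + H, by rw [smul_add, hG, hH, Finsupp.sum_add_index'] <;> simp⟩
    | smul c u _ hu =>
      intro a
      obtain ⟨G, hG⟩ := hu (a * c)
      exact ⟨G, by rw [smul_smul, hG]⟩
  obtain ⟨G, hG⟩ := key 1
  rw [one_smul] at hG
  refine ⟨G.support.card, fun i => b (G.support.equivFin.symm i).1,
    fun i => G (G.support.equivFin.symm i).1,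
    b.linearIndependent.comp _ (Subtype.val_injective.comp G.support.equivFin.symm.injective), ?_⟩
  rw [hG, Finsupp.sum, ← Finset.sum_coe_sort]
  exact (Equiv.sum_comp G.support.equivFin.symm
    (fun i : G.support => b i.1 • algebraMap F F' (G i.1))).symm

variable [IsConstExt k F L F'] [IsFunctionField k F] [IsFunctionField L F'] [IsAlgClosed k]
  [IsAlgClosed L]

@[simp]
theorem adicValuation_liftPlace (q : Place k F) (f : F) :
    (liftPlace L F' q).adicValuation (algebraMap F F' f) = q.adicValuation f := by
  rcases eq_or_ne f 0 with rfl | hf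
  · simp
  rw [q.adicValuation_eq_exp_neg_ord hf,
    Place.adicValuation_eq_exp_neg_ord _ (by simpa using hf), ord_liftPlace]

/-- No cancellation between leading terms with `k`-independent coefficients. -/
theorem adicValuation_le_of_sum {n : ℕ} {a : Fin n → L} (ha : LinearIndependent k a)
    (g : Fin n → F) (q : Place k F) {m : ℤ}
    (h : (liftPlace L F' q).adicValuation (∑ i, a i • algebraMap F F' (g i)) ≤ exp m) (i : Fin n) :
    q.adicValuation (g i) ≤ exp m := by
  classical
  by_contra hi
  obtain ⟨i₀, -, hmax⟩ := Finset.exists_max_image Finset.univ (fun j => q.adicValuation (g j))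
    ⟨i, Finset.mem_univ _⟩
  have hi₀ : exp m < q.adicValuation (g i₀) := lt_of_lt_of_le (not_le.mp hi) (hmax i (Finset.mem_univ _))
  set t := g i₀ with ht_def
  have ht : t ≠ 0 := fun h0 => by simp [h0] at hi₀
  have hq0 : q.adicValuation t ≠ 0 := q.adicValuation_ne_zero ht
  have hmem : ∀ j, g j / t ∈ q.toValuationSubring := fun j => by
    rw [Fermat.Agent.FunctionField.mem_iff_adicValuation_le_one, map_div₀,
      div_le_one₀ (zero_lt_iff.mpr hq0)]
    exact hmax j (Finset.mem_univ _)
  choose c hc using fun j => exists_value q (hmem j)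
  have hc₀ : c i₀ = 1 := value_unique q (hc i₀) (by rw [← ht_def, div_self ht, map_one, sub_self, map_zero]; exact zero_lt_one)
  set P := liftPlace L F' q with hP
  have hs : ∑ j, a j * algebraMap k L (c j) ≠ 0 := by
    intro h0
    have := Fintype.linearIndependent_iff.mp ha c
      (by rw [← h0]; exact Finset.sum_congr rfl fun j _ => by rw [Algebra.smul_def, mul_comm]) i₀
    rw [hc₀] at this
    exact one_ne_zero this
  have hdecomp : (∑ j, a j • algebraMap F F' (g j)) / algebraMap F F' t
      = algebraMap L F' (∑ j, a j * algebraMap k L (c j))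
        + ∑ j, a j • algebraMap F F' (g j / t - algebraMap k F (c j)) := by
    rw [Finset.sum_div, map_sum, ← Finset.sum_add_distrib]
    refine Finset.sum_congr rfl fun j _ => ?_
    rw [map_sub, map_div₀, ← IsScalarTower.algebraMap_apply, map_mul,
      ← IsScalarTower.algebraMap_apply, Algebra.smul_def, Algebra.smul_def]
    ring
  have hsmall : P.adicValuation (∑ j, a j • algebraMap F F' (g j / t - algebraMap k F (c j))) < 1 :=
    Valuation.map_sum_lt' _ zero_lt_one fun j _ => by
      rw [Algebra.smul_def, map_mul, hP, adicValuation_liftPlace]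
      exact lt_of_le_of_lt (mul_le_of_le_one_left' (P.adicValuation_algebraMap_le_one _)) (hc j)
  have hone : P.adicValuation (algebraMap L F' (∑ j, a j * algebraMap k L (c j))) = 1 :=
    adicValuation_algebraMap P hs
  have h1 := Valuation.map_add_eq_of_lt_left P.adicValuation (hone.symm ▸ hsmall)
  rw [← hdecomp, map_div₀, hone, hP, adicValuation_liftPlace, div_eq_one_iff_eq hq0] at h1
  rw [h1] at h
  exact absurd h (not_le.mpr hi₀)

end Fermat.Agent.CurveBaseChange
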